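import Fermat.Agent.AbVar.Curve.TensorDomain
import Fermat.Agent.FF.RiemannRoch
import Mathlib.RingTheory.Localization.FractionRing

/-!
# Constant field extensions of function fields

For `k` algebraically closed, `ConstExt k F Ω` is the fraction field of the domain `F ⊗[k] Ω`.
It is a function field over `Ω` of the same degree over a rational function field, and every place
of `F/k` has exactly one place above it.
-/

set_option autoImplicit false
set_option linter.unusedSectionVars false

noncomputable section

open scoped TensorProduct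
open AlgebraicCurve IntermediateField

namespace Fermat.Agent.AbVar

/-- The fraction field of `F ⊗[k] Ω`. -/
def ConstExt (k F Ω : Type*) [Field k] [Field F] [Field Ω] [Algebra k F] [Algebra k Ω] :=
  FractionRing (F ⊗[k] Ω)

variable {k F Ω : Type*} [Field k] [Field F] [Field Ω] [Algebra k F] [Algebra k Ω] [IsAlgClosed k]

instance : Field (ConstExt k F Ω) :=
  haveI := isDomain_tensorProduct k F Ω
  inferInstanceAs (Field (FractionRing (F ⊗[k] Ω)))

variable (k F Ω)

/-- The map from the tensor product. -/
def embHom : F ⊗[k] Ω →+* ConstExt k F Ω :=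
  algebraMap (F ⊗[k] Ω) (FractionRing (F ⊗[k] Ω))

/-- The constants. -/
def constHom : Ω →+* ConstExt k F Ω :=
  (embHom k F Ω).comp (Algebra.TensorProduct.includeRight : Ω →ₐ[k] F ⊗[k] Ω).toRingHom

variable {k F Ω}

instance algebraConst {S : Type*} [CommSemiring S] [Algebra S Ω] :
    Algebra S (ConstExt k F Ω) :=
  ((constHom k F Ω).comp (algebraMap S Ω)).toAlgebra

instance towerConst {S : Type*} [CommSemiring S] [Algebra S Ω] :
    IsScalarTower S Ω (ConstExt k F Ω) :=
  IsScalarTower.of_algebraMap_eq fun _ => rfl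

theorem algebraMap_const_apply {S : Type*} [CommSemiring S] [Algebra S Ω] (s : S) :
    algebraMap S (ConstExt k F Ω) s = algebraMap Ω (ConstExt k F Ω) (algebraMap S Ω s) := rfl

variable (k F Ω)

/-- The embedding of `F`. -/
def incl : F →ₐ[k] ConstExt k F Ω :=
  AlgHom.mk' ((embHom k F Ω).comp Algebra.TensorProduct.includeLeftRingHom) fun c f => by
    rw [Algebra.smul_def, Algebra.smul_def, map_mul]
    refine congrArg (· * _) ?_
    show embHom k F Ω (algebraMap k F c ⊗ₜ 1) = embHom k F Ω (1 ⊗ₜ algebraMap k Ω c)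
    rw [Algebra.algebraMap_eq_smul_one, Algebra.algebraMap_eq_smul_one, TensorProduct.smul_tmul]

/-- The map from the tensor product, as an algebra map. -/
def emb : F ⊗[k] Ω →ₐ[k] ConstExt k F Ω :=
  Algebra.TensorProduct.productMap (incl k F Ω) (IsScalarTower.toAlgHom k Ω (ConstExt k F Ω))

variable {k F Ω}

theorem emb_tmul (f : F) (c : Ω) :
    emb k F Ω (f ⊗ₜ c) = incl k F Ω f * algebraMap Ω (ConstExt k F Ω) c :=
  Algebra.TensorProduct.productMap_apply_tmul _ _ f c

theorem emb_eq_embHom (z : F ⊗[k] Ω) : emb k F Ω z = embHom k F Ω z := by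
  induction z using TensorProduct.induction_on with
  | zero => simp
  | tmul f c =>
    rw [emb_tmul, show incl k F Ω f = embHom k F Ω (f ⊗ₜ 1) from rfl,
      show algebraMap Ω (ConstExt k F Ω) c = embHom k F Ω (1 ⊗ₜ c) from rfl, ← map_mul,
      Algebra.TensorProduct.tmul_mul_tmul, mul_one, one_mul]
  | add x y hx hy => rw [map_add, map_add, hx, hy]

theorem emb_injective : Function.Injective (emb k F Ω) := fun a b h => by
  rw [emb_eq_embHom, emb_eq_embHom] at h
  exact IsFractionRing.injective (F ⊗[k] Ω) (FractionRing (F ⊗[k] Ω)) h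

theorem exists_div (e : ConstExt k F Ω) :
    ∃ a b : F ⊗[k] Ω, b ≠ 0 ∧ e = emb k F Ω a / emb k F Ω b := by
  have := isDomain_tensorProduct k F Ω
  obtain ⟨a, b, hb, he⟩ := IsFractionRing.div_surjective (A := F ⊗[k] Ω)
    (K := FractionRing (F ⊗[k] Ω)) e
  exact ⟨a, b, nonZeroDivisors.ne_zero hb, by rw [emb_eq_embHom, emb_eq_embHom]; exact he.symm⟩

theorem emb_ne_zero {z : F ⊗[k] Ω} (hz : z ≠ 0) : emb k F Ω z ≠ 0 :=
  (map_ne_zero_iff _ emb_injective).mpr hz

theorem incl_injective : Function.Injective (incl k F Ω) := (incl k F Ω).toRingHom.injective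

theorem linearIndependent_incl {ι : Type*} {f : ι → F} (h : LinearIndependent k f) :
    LinearIndependent Ω fun i => incl k F Ω (f i) := by
  classical
  rw [linearIndependent_iff']
  intro s c hc i hi
  obtain ⟨g, hg⟩ := ((Finsupp.lapply i).comp h.repr : Submodule.span k (Set.range f) →ₗ[k] k).exists_extend
  have hz : ∑ j ∈ s, f j ⊗ₜ[k] c j = 0 := emb_injective (by
    rw [map_sum, map_zero, ← hc]
    exact Finset.sum_congr rfl fun j _ => by rw [emb_tmul, Algebra.smul_def, mul_comm])
  have h2 := congrArg ((TensorProduct.lid k Ω).toLinearMap.comp (g.rTensor Ω)) hz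
  have hgj : ∀ j, g (f j) = Finsupp.single j (1 : k) i := fun j => by
    have := LinearMap.congr_fun hg ⟨f j, Submodule.subset_span ⟨j, rfl⟩⟩
    rwa [LinearMap.comp_apply, LinearMap.comp_apply, h.repr_eq_single j _ rfl] at this
  simpa [hgj, Finsupp.single_apply, hi] using h2

theorem transcendental_incl {x : F} (hx : Transcendental k x) :
    Transcendental Ω (incl k F Ω x) := by
  have h : LinearIndependent k fun n : ℕ => x ^ n := by
    rw [linearIndependent_iff']
    intro s g hg i hi
    have h0 : Polynomial.aeval x (∑ j ∈ s, Polynomial.monomial j (g j)) = 0 := by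
      rw [← hg, map_sum]
      exact Finset.sum_congr rfl fun j _ => by rw [Polynomial.aeval_monomial, Algebra.smul_def]
    have h1 := congrArg (fun p => Polynomial.coeff p i) (transcendental_iff.mp hx _ h0)
    simpa [Polynomial.finsetSum_coeff, Polynomial.coeff_monomial, hi] using h1
  rw [transcendental_iff]
  intro p hp
  rw [Polynomial.aeval_eq_sum_range] at hp
  ext n
  by_cases hn : n ∈ Finset.range (p.natDegree + 1)
  · have h2 := linearIndependent_incl (Ω := Ω) h
    have h3 := linearIndependent_iff'.mp h2 (Finset.range (p.natDegree + 1)) (fun j => p.coeff j)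
    simp only [map_pow] at h3
    exact h3 hp n hn
  · rw [Polynomial.coeff_zero, Polynomial.coeff_eq_zero_of_natDegree_lt]
    rw [Finset.mem_range] at hn
    omega

variable [FF.IsFunctionField k F]

theorem finite_and_finrank_adjoin_incl {x : F} (hx : Transcendental k x) :
    FiniteDimensional Ω⟮incl k F Ω x⟯ (ConstExt k F Ω) ∧
      Module.finrank Ω⟮incl k F Ω x⟯ (ConstExt k F Ω) = Module.finrank k⟮x⟯ F := by
  classical
  have := FF.finiteDimensional_adjoin hx
  set E := ConstExt k F Ω
  set ix := incl k F Ω x
  let u := Module.finBasis k⟮x⟯ F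
  set n := Module.finrank k⟮x⟯ F
  let iu : Fin n → E := fun i => incl k F Ω (u i)
  have hix := transcendental_incl (Ω := Ω) hx
  -- independence
  have hli : LinearIndependent Ω⟮ix⟯ iu := by
    refine FF.linearIndependent_adjoin hix fun p hp i => ?_
    set N := Finset.univ.sup fun j => (p j).natDegree
    have hw : LinearIndependent k fun a : Fin (N + 1) × Fin n => x ^ (a.1 : ℕ) * u a.2 := by
      rw [Fintype.linearIndependent_iff]
      intro g hg a
      let q : Fin n → Polynomial k :=
        fun j => ∑ m : Fin (N + 1), Polynomial.monomial (m : ℕ) (g (m, j))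
      let c : Fin n → k⟮x⟯ := fun j => ⟨Polynomial.aeval x (q j),
        algebra_adjoin_le_adjoin k _ (Polynomial.aeval_mem_adjoin_singleton k x)⟩
      have h0 : ∑ j, c j • u j = 0 := by
        rw [← hg, Fintype.sum_prod_type_right]
        refine Finset.sum_congr rfl fun j _ => ?_
        simp [c, q, Finset.sum_mul, Polynomial.aeval_monomial,
          Algebra.smul_def, mul_assoc]
      have h1 : q a.2 = 0 := transcendental_iff.mp hx _
        (congrArg Subtype.val (Fintype.linearIndependent_iff.mp u.linearIndependent c h0 a.2))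
      simpa [q, Polynomial.finsetSum_coeff, Polynomial.coeff_monomial, Fin.val_inj] using
        congrArg (fun r => Polynomial.coeff r (a.1 : ℕ)) h1
    have h2 := linearIndependent_incl (Ω := Ω) hw
    have h3 := Fintype.linearIndependent_iff.mp h2
    refine h3 (fun a => (p a.2).coeff a.1) ?_ (0, i)
    rw [Fintype.sum_prod_type_right, ← hp]
    refine Finset.sum_congr rfl fun j _ => ?_
    rw [Polynomial.aeval_eq_sum_range' (Nat.lt_succ_of_le
      (Finset.le_sup (f := fun j => (p j).natDegree) (Finset.mem_univ j))),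
      Finset.sum_range, Finset.sum_mul]
    simp only [iu, map_mul, map_pow, smul_mul_assoc]
    exact Finset.sum_congr rfl fun _ _ => rfl
  -- spanning
  set M := Submodule.span Ω⟮ix⟯ (Set.range iu)
  have hbase : ∀ a : k⟮x⟯, incl k F Ω a ∈ Ω⟮ix⟯ := fun a => by
    obtain ⟨r, s, hrs⟩ := mem_adjoin_simple_iff (F := k) (a : F) |>.mp a.2
    rw [mem_adjoin_simple_iff]
    refine ⟨r.map (algebraMap k Ω), s.map (algebraMap k Ω), ?_⟩
    rw [hrs, map_div₀, Polynomial.aeval_map_algebraMap, Polynomial.aeval_map_algebraMap,
      ← Polynomial.aeval_algHom_apply, ← Polynomial.aeval_algHom_apply]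
  have hinc : ∀ f : F, incl k F Ω f ∈ M := fun f => by
    rw [← u.sum_repr f, map_sum]
    refine Submodule.sum_mem _ fun j _ => ?_
    rw [IntermediateField.smul_def, smul_eq_mul, map_mul]
    exact Submodule.smul_mem M (⟨_, hbase (u.repr f j)⟩ : Ω⟮ix⟯) (Submodule.subset_span ⟨j, rfl⟩)
  have hemb : ∀ z, emb k F Ω z ∈ M := fun z => by
    induction z using TensorProduct.induction_on with
    | zero => rw [map_zero]; exact M.zero_mem
    | tmul f c =>
      rw [emb_tmul, mul_comm]
      exact Submodule.smul_mem M (algebraMap Ω Ω⟮ix⟯ c) (hinc f)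
    | add a b ha hb => rw [map_add]; exact M.add_mem ha hb
  have hmul : ∀ a ∈ M, ∀ b ∈ M, a * b ∈ M := by
    intro a ha b hb
    induction hb using Submodule.span_induction with
    | mem b hb =>
      obtain ⟨j, rfl⟩ := hb
      induction ha using Submodule.span_induction with
      | mem a ha =>
        obtain ⟨i, rfl⟩ := ha
        show incl k F Ω (u i) * incl k F Ω (u j) ∈ M
        rw [← map_mul]
        exact hinc _
      | zero => rw [zero_mul]; exact M.zero_mem
      | add a a' _ _ h h' => rw [add_mul]; exact M.add_mem h h'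
      | smul c a _ h => rw [smul_mul_assoc]; exact M.smul_mem c h
    | zero => rw [mul_zero]; exact M.zero_mem
    | add b b' _ _ h h' => rw [mul_add]; exact M.add_mem h h'
    | smul c b _ h => rw [mul_smul_comm]; exact M.smul_mem c h
  have htop : M = ⊤ := by
    have : FiniteDimensional Ω⟮ix⟯ M := FiniteDimensional.span_of_finite _ (Set.finite_range _)
    refine eq_top_iff.mpr fun e _ => ?_
    obtain ⟨a, b, hb, rfl⟩ := exists_div e
    let φ : M →ₗ[Ω⟮ix⟯] M :=
      (LinearMap.mulLeft Ω⟮ix⟯ (emb k F Ω b)).restrict fun v hv => hmul _ (hemb b) v hv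
    have hφ : Function.Injective φ := fun v w h =>
      Subtype.ext (mul_left_cancel₀ (emb_ne_zero hb) (congrArg Subtype.val h))
    obtain ⟨⟨v, hv⟩, hv'⟩ := (LinearMap.injective_iff_surjective.mp hφ) ⟨_, hemb a⟩
    have hv'' : emb k F Ω b * v = emb k F Ω a := congrArg Subtype.val hv'
    rwa [← hv'', mul_div_cancel_left₀ _ (emb_ne_zero hb)]
  let bas : Module.Basis (Fin n) Ω⟮ix⟯ E := Module.Basis.mk hli htop.ge
  exact ⟨Module.Finite.of_basis bas, by rw [Module.finrank_eq_card_basis bas, Fintype.card_fin]⟩

instance isFunctionField : FF.IsFunctionField Ω (ConstExt k F Ω) := by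
  obtain ⟨x, hx, -⟩ := FF.IsFunctionField.exists_finite (K := k) (F := F)
  have := (finite_and_finrank_adjoin_incl (Ω := Ω) hx).1
  exact FF.isFunctionField_of_finite (transcendental_incl hx)

theorem finrank_adjoin_incl {x : F} (hx : Transcendental k x) :
    Module.finrank Ω⟮incl k F Ω x⟯ (ConstExt k F Ω) = Module.finrank k⟮x⟯ F :=
  (finite_and_finrank_adjoin_incl hx).2

end Fermat.Agent.AbVar
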