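import Mathlib.RingTheory.Valuation.LocalSubring
import Mathlib.FieldTheory.IsAlgClosed.Basic

/-!
# A valuation over an algebraically closed subfield with the same residue field
-/

set_option autoImplicit false

noncomputable section

open Polynomial

namespace Fermat.Agent.AbVar

variable (k Om : Type*) [Field k] [Field Om] [Algebra k Om]

theorem exists_minimal_valuationSubring :
    ∃ V : ValuationSubring Om, (∀ c : k, algebraMap k Om c ∈ V) ∧
      ∀ B : ValuationSubring Om, (∀ c : k, algebraMap k Om c ∈ B) → B ≤ V → V ≤ B := by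
  let S := {V : ValuationSubring Om // ∀ c : k, algebraMap k Om c ∈ V}
  have h : ∃ m : S, ∀ a : S, a.1 ≤ m.1 → m.1 ≤ a.1 := by
    refine exists_maximal_of_chains_bounded (r := fun a b : S => b.1 ≤ a.1) (fun c hc => ?_)
      fun hab hbc => hbc.trans hab
    rcases c.eq_empty_or_nonempty with rfl | ⟨A₀, hA₀⟩
    · exact ⟨⟨⊤, fun _ => trivial⟩, fun a ha => absurd ha (Set.notMem_empty a)⟩
    let R : Subring Om := ⨅ A : c, A.1.1.toSubring
    have hR : ∀ y, y ∈ R ↔ ∀ A ∈ c, y ∈ A.1 := fun y =>
      ⟨fun h A hA => Subring.mem_iInf.mp h ⟨A, hA⟩, fun h => Subring.mem_iInf.mpr fun A => h A.1 A.2⟩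
    let W : ValuationSubring Om :=
      { toSubring := R
        mem_or_inv_mem' := fun y => by
          change y ∈ R ∨ y⁻¹ ∈ R
          by_contra! hy
          rw [hR, hR] at hy
          push Not at hy
          obtain ⟨⟨A, hA, hyA⟩, ⟨B, hB, hyB⟩⟩ := hy
          rcases hc.total hA hB with h | h
          · exact hyA (h ((B.1.mem_or_inv_mem y).resolve_right hyB))
          · exact hyB (h ((A.1.mem_or_inv_mem y).resolve_left hyA)) }
    refine ⟨⟨W, fun a => (hR _).mpr fun A _ => A.2 a⟩, fun a ha y hy => (hR y).mp hy a ha⟩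
  obtain ⟨m, hm⟩ := h
  exact ⟨m.1, m.2, fun B hB hle => hm ⟨B, hB⟩ hle⟩

/-- An extension field carries a valuation ring over `k` with residue field `k`. -/
theorem exists_valuationSubring_residue_eq [IsAlgClosed k] :
    ∃ V : ValuationSubring Om, (∀ c : k, algebraMap k Om c ∈ V) ∧
      ∀ x ∈ V, ∃ c : k, x - algebraMap k Om c ∈ V.nonunits := by
  obtain ⟨V, hk, hmin⟩ := exists_minimal_valuationSubring k Om
  refine ⟨V, hk, fun x hx => ?_⟩
  by_contra! hx'
  set v := V.valuation
  have hle : ∀ {y : Om}, y ∈ V → v y ≤ 1 := fun hy => (V.valuation_le_one_iff _).mpr hy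
  have hlin : ∀ r : k, v (x - algebraMap k Om r) = 1 := fun r =>
    le_antisymm (hle (sub_mem hx (hk r))) (not_lt.mp fun h => hx' r h)
  have hconst : ∀ c : k, c ≠ 0 → v (algebraMap k Om c) = 1 := fun c hc => by
    refine le_antisymm (hle (hk c)) ?_
    have h := hle (hk c⁻¹)
    rw [map_inv₀, map_inv₀] at h
    exact (inv_le_one₀ (zero_lt_iff.mpr ((Valuation.ne_zero_iff _).mpr
      ((_root_.map_ne_zero _).mpr hc)))).mp h
  have hpoly : ∀ (n : ℕ) (q : k[X]), q.natDegree = n → q ≠ 0 → v (aeval x q) = 1 := by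
    intro n
    induction n using Nat.strong_induction_on with
    | _ n ih =>
      intro q hn hq
      rcases Nat.eq_zero_or_pos n with rfl | hpos
      · rw [eq_C_of_natDegree_eq_zero hn, aeval_C]
        exact hconst _ fun h => hq (by rw [eq_C_of_natDegree_eq_zero hn, h, map_zero])
      · obtain ⟨r, hr⟩ := IsAlgClosed.exists_root q fun h => by
          rw [natDegree_eq_of_degree_eq_some (n := 0) h] at hn
          omega
        obtain ⟨q', rfl⟩ := dvd_iff_isRoot.mpr hr
        have hq' : q' ≠ 0 := right_ne_zero_of_mul hq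
        rw [natDegree_mul (X_sub_C_ne_zero r) hq', natDegree_X_sub_C] at hn
        rw [map_mul, map_sub, aeval_X, aeval_C, map_mul, hlin,
          ih _ (by omega) q' rfl hq', one_mul]
  have haev : ∀ p : k[X], v (aeval x p) ≤ 1 := fun p => by
    rcases eq_or_ne p 0 with rfl | hp
    · simp
    · exact (hpoly _ p rfl hp).le
  let R : Subring Om :=
    { carrier := {y | ∃ p : k[X], ∃ m, v m < 1 ∧ y = aeval x p + m}
      mul_mem' := by
        rintro _ _ ⟨p, m, hm, rfl⟩ ⟨q, l, hl, rfl⟩
        refine ⟨p * q, aeval x p * l + m * (aeval x q + l), ?_, by rw [map_mul]; ring⟩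
        refine Valuation.map_add_lt _ ?_ ?_
        · rw [map_mul]
          exact lt_of_le_of_lt (mul_le_of_le_one_left' (haev p)) hl
        · rw [map_mul]
          exact lt_of_le_of_lt (mul_le_of_le_one_right'
            ((Valuation.map_add _ _ _).trans (max_le (haev q) hl.le))) hm
      one_mem' := ⟨1, 0, by simp, by simp⟩
      add_mem' := by
        rintro _ _ ⟨p, m, hm, rfl⟩ ⟨q, l, hl, rfl⟩
        exact ⟨p + q, m + l, Valuation.map_add_lt _ hm hl, by rw [map_add]; ring⟩
      zero_mem' := ⟨0, 0, by simp, by simp⟩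
      neg_mem' := by
        rintro _ ⟨p, m, hm, rfl⟩
        exact ⟨-p, -m, by rwa [Valuation.map_neg], by rw [map_neg]; ring⟩ }
  let I : Ideal R :=
    { carrier := {y | ∃ p : k[X], ∃ m, v m < 1 ∧ (y : Om) = x * aeval x p + m}
      add_mem' := by
        rintro _ _ ⟨p, m, hm, hy⟩ ⟨q, l, hl, hz⟩
        exact ⟨p + q, m + l, Valuation.map_add_lt _ hm hl, by
          rw [Subring.coe_add, hy, hz, map_add]; ring⟩
      zero_mem' := ⟨0, 0, by simp, by simp⟩
      smul_mem' := by
        rintro ⟨_, p, m, hm, rfl⟩ z ⟨q, l, hl, hz⟩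
        refine ⟨p * q, aeval x p * l + m * (x * aeval x q + l), ?_, by
          simp only [smul_eq_mul, Subring.coe_mul, hz, map_mul]; ring⟩
        refine Valuation.map_add_lt _ ?_ ?_
        · rw [map_mul]
          exact lt_of_le_of_lt (mul_le_of_le_one_left' (haev p)) hl
        · rw [map_mul]
          refine lt_of_le_of_lt (mul_le_of_le_one_right'
            ((Valuation.map_add _ _ _).trans (max_le ?_ hl.le))) hm
          rw [map_mul]
          exact mul_le_one' (hle hx) (haev q) }
  have hI : I ≠ ⊤ := by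
    rw [Ideal.ne_top_iff_one]
    rintro ⟨p, m, hm, h⟩
    rw [OneMemClass.coe_one] at h
    have hne : X * p - 1 ≠ 0 := fun h0 => by
      have := congrArg (Polynomial.eval 0) h0
      simp at this
    have h1 := hpoly _ _ rfl hne
    rw [map_sub, map_mul, aeval_X, map_one, show x * aeval x p - 1 = -m by rw [h]; ring,
      Valuation.map_neg] at h1
    exact absurd h1 hm.ne
  obtain ⟨B, hRB, hIB⟩ := Ideal.image_subset_nonunits_valuationSubring I hI
  have hkB : ∀ c : k, algebraMap k Om c ∈ B := fun c =>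
    hRB ⟨C c, 0, by simp, by simp⟩
  have hBV : B ≤ V := by
    intro y hy
    by_contra hyV
    have hm : v y⁻¹ < 1 := (V.inv_mem_nonunits_iff.mpr (Or.inr hyV) :)
    have hyI : y⁻¹ ∈ B.nonunits :=
      hIB ⟨⟨y⁻¹, 0, y⁻¹, hm, by simp⟩, ⟨0, y⁻¹, hm, by simp⟩, rfl⟩
    rcases B.inv_mem_nonunits_iff.mp hyI with h | h
    · exact hyV (h ▸ zero_mem V)
    · exact h hy
  have hxI : x ∈ B.nonunits :=
    hIB ⟨⟨x, X, 0, by simp, by simp⟩, ⟨1, 0, by simp, by simp⟩, rfl⟩
  have hx1 : v x = 1 := by simpa using hlin 0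
  have hx0 : x ≠ 0 := fun h => by simp [h] at hx1
  have hxinv : x⁻¹ ∈ V := (V.valuation_le_one_iff _).mp (by rw [map_inv₀, hx1, inv_one])
  have := (B.inv_mem_nonunits_iff (x := x⁻¹)).mp (by rwa [inv_inv])
  rcases this with h | h
  · exact hx0 (inv_eq_zero.mp h)
  · exact h (hmin B hkB hBV hxinv)

end Fermat.Agent.AbVar
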