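import Fermat.Agent.AbVar.Curve.RedSpace
import Fermat.Agent.AbVar.Curve.ResidueValuation

/-!
# Genus and Riemann–Roch spaces of a constant field extension

The genus does not change and Riemann–Roch spaces of extended divisors are spanned by those of
`F`.  A place of `ConstExt k F Ω` is determined by the values of the functions of `F`.
-/

set_option autoImplicit false
set_option linter.unusedSectionVars false

noncomputable section

open scoped TensorProduct
open AlgebraicCurve IsLocalRing

namespace Fermat.Agent.AbVar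

open scoped Classical

variable {k F Ω : Type*} [Field k] [Field F] [Field Ω] [Algebra k F] [Algebra k Ω] [IsAlgClosed k]
  [FF.IsFunctionField k F]

theorem incl_self_surjective : Function.Surjective (incl k F k) := fun e => by
  obtain ⟨a, b, -, rfl⟩ := exists_div e
  have h : ∀ z : F ⊗[k] k, ∃ f, incl k F k f = emb k F k z := fun z => by
    induction z using TensorProduct.induction_on with
    | zero => exact ⟨0, by simp⟩
    | tmul f c =>
      exact ⟨f * algebraMap k F c, by rw [map_mul, emb_tmul, (incl k F k).commutes]⟩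
    | add x y hx hy =>
      obtain ⟨f, hf⟩ := hx
      obtain ⟨g, hg⟩ := hy
      exact ⟨f + g, by rw [map_add, map_add, hf, hg]⟩
  obtain ⟨f, hf⟩ := h a
  obtain ⟨g, hg⟩ := h b
  exact ⟨f / g, by rw [map_div₀, hf, hg]⟩

theorem incl_mem_riemannRochSpace_iff {D : Divisor k F} {f : F} :
    incl k F Ω f ∈ riemannRochSpace (baseDiv D : Divisor Ω (ConstExt k F Ω)) ↔
      f ∈ riemannRochSpace D := by
  refine ⟨fun h => ?_, incl_mem_riemannRochSpace⟩
  rw [FF.mem_riemannRochSpace'] at h ⊢
  intro Q
  have h1 := h (liftPlace Q)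
  rw [baseDiv_liftPlace] at h1
  rcases (FF.mem_ordGe _).mp h1 with h2 | h2
  · rw [(map_eq_zero _).mp h2]; exact zero_mem _
  · exact FF.mem_ordGe_of_le _ (by rwa [ord_liftPlace] at h2)

theorem ell_baseDiv_self (D : Divisor k F) :
    FF.ell k (baseDiv D : Divisor k (ConstExt k F k)) = FF.ell k D := by
  let φ : riemannRochSpace D →ₗ[k] riemannRochSpace (baseDiv D : Divisor k (ConstExt k F k)) :=
    ((incl k F k).toLinearMap.comp (riemannRochSpace D).subtype).codRestrict _
      fun f => incl_mem_riemannRochSpace f.2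
  have hφ : Function.Bijective φ := by
    refine ⟨fun a b h => Subtype.ext (incl_injective (congrArg Subtype.val h)), fun e => ?_⟩
    obtain ⟨f, hf⟩ := incl_self_surjective (k := k) (F := F) e.1
    have he := e.2
    rw [← hf, incl_mem_riemannRochSpace_iff] at he
    exact ⟨⟨f, he⟩, Subtype.ext hf⟩
  simp [FF.ell, (LinearEquiv.ofBijective φ hφ).finrank_eq]

section Compare

variable [IsAlgClosed Ω] {κ : Type*} [Field κ] [Algebra k κ] [IsAlgClosed κ]
  {V : ValuationSubring Ω} [Algebra k V] [IsScalarTower k V Ω] {r : V →ₐ[k] κ}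
  (hr : Function.Surjective r)

include hr

theorem rho_baseDiv {c : ℤ}
    (hc : ∀ D : Divisor k F, c ≤ Divisor.degree D →
      FF.ell k D = Divisor.degree D + 1 - genusFF k F)
    {D : Divisor k F} (hD : 0 ≤ D) (hdeg : c + 1 ≤ Divisor.degree D) :
    rho hr (baseDiv D : Divisor Ω (ConstExt k F Ω)) = baseDiv D := by
  refine (eq_of_le_of_degree_le' (Finsupp.le_def.mpr fun P => ?_)
    ((degree_rho_le hr (baseDiv_nonneg hD)).trans_eq
      ((degree_baseDiv D).trans (degree_baseDiv D).symm))).symm
  by_cases hP : ∃ Q : Place k F, P = liftPlace Q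
  · obtain ⟨Q, rfl⟩ := hP
    rw [baseDiv_liftPlace]
    obtain ⟨f, hf, hfn⟩ := FiniteFlat.exists_notMem_ordGe hc hdeg Q
    have hf0 : f ≠ 0 := fun e => hfn (e ▸ zero_mem _)
    have h1 : incl k F κ f ∈ riemannRochSpace (rho hr (baseDiv D)) := by
      rw [← gaussRed_incl r]
      exact redW_le_rho hr _ (gaussRed_mem_redW r (incl_mem_riemannRochSpace hf))
    have h2 := FF.le_ord_of_mem_ordGe _ ((map_ne_zero _).mpr hf0)
      (FF.mem_riemannRochSpace'.mp h1 (liftPlace Q))
    rw [ord_liftPlace] at h2
    have h3 : Q.ord f < -D Q + 1 := not_le.mp fun e => hfn (FF.mem_ordGe_of_le Q e)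
    omega
  · rw [baseDiv_apply_of_forall_ne _ (fun Q hQ => hP ⟨Q, hQ⟩)]
    exact Finsupp.le_def.mp (rho_nonneg hr _) P

theorem ell_baseDiv_le_red {c : ℤ}
    (hc : ∀ D : Divisor k F, c ≤ Divisor.degree D →
      FF.ell k D = Divisor.degree D + 1 - genusFF k F)
    {D : Divisor k F} (hD : 0 ≤ D) (hdeg : c + 1 ≤ Divisor.degree D) :
    FF.ell Ω (baseDiv D : Divisor Ω (ConstExt k F Ω)) ≤
      FF.ell κ (baseDiv D : Divisor κ (ConstExt k F κ)) :=
  (ell_le_ell_rho hr _).trans_eq (by rw [rho_baseDiv hr hc hD hdeg])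

end Compare

variable [IsAlgClosed Ω]

/-- The genus is invariant under extension of constants. -/
theorem genusFF_constExt : genusFF Ω (ConstExt k F Ω) = genusFF k F := by
  obtain ⟨V, hk, hres⟩ := exists_valuationSubring_residue_eq k Ω
  let : Algebra k V := ((algebraMap k Ω).codRestrict V.toSubring hk).toAlgebra
  have : IsScalarTower k V Ω := IsScalarTower.of_algebraMap_eq fun _ => rfl
  have hb : Function.Bijective (algebraMap k (ResidueField V)) := by
    refine ⟨(algebraMap k (ResidueField V)).injective, fun y => ?_⟩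
    obtain ⟨x, rfl⟩ := residue_surjective y
    obtain ⟨c, hc⟩ := hres x x.2
    refine ⟨c, Eq.symm ?_⟩
    rw [IsScalarTower.algebraMap_apply k V (ResidueField V), ResidueField.algebraMap_eq,
      ← sub_eq_zero, ← map_sub, residue_eq_zero_iff, ← ValuationSubring.coe_mem_nonunits_iff]
    exact hc
  let e : k ≃ₐ[k] ResidueField V := AlgEquiv.ofBijective (Algebra.ofId k (ResidueField V)) hb
  let r : V →ₐ[k] k := e.symm.toAlgHom.comp (IsScalarTower.toAlgHom k V (ResidueField V))
  have hr : Function.Surjective r := e.symm.surjective.comp residue_surjective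
  obtain ⟨c, hc1, hc⟩ := FiniteFlat.exists_threshold (K := k) (F := F)
  obtain ⟨d, hd1, hd⟩ := FiniteFlat.exists_threshold (K := Ω) (F := ConstExt k F Ω)
  obtain ⟨Q⟩ := FF.exists_place (K := k) (F := F)
  set D := Finsupp.single Q (c + d + 1)
  have hD : 0 ≤ D := Finsupp.le_def.mpr fun v => by
    rcases eq_or_ne v Q with rfl | hv
    · simp only [D, Finsupp.single_eq_same, Finsupp.coe_zero, Pi.zero_apply]; omega
    · simp [D, Finsupp.single_eq_of_ne hv]
  have hdeg : Divisor.degree D = c + d + 1 := by
    rw [Divisor.degree_single, FF.deg_eq_one, Nat.cast_one, mul_one]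
  have h1 := ell_le_ell_baseDiv (Ω := Ω) D
  have h2 := ell_baseDiv_le_red (Ω := Ω) hr hc hD (by omega)
  rw [ell_baseDiv_self] at h2
  rw [hd _ (by rw [degree_baseDiv]; omega), hc D (by omega), degree_baseDiv] at h1 h2
  omega

/-- Riemann–Roch dimensions are invariant under extension of constants. -/
theorem ell_baseDiv (D : Divisor k F) :
    FF.ell Ω (baseDiv D : Divisor Ω (ConstExt k F Ω)) = FF.ell k D := by
  obtain ⟨c, hc1, hc⟩ := FiniteFlat.exists_threshold (K := k) (F := F)
  obtain ⟨d, hd1, hd⟩ := FiniteFlat.exists_threshold (K := Ω) (F := ConstExt k F Ω)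
  obtain ⟨Q⟩ := FF.exists_place (K := k) (F := F)
  suffices ∀ (n : ℕ) (D : Divisor k F), c + d ≤ Divisor.degree D + n →
      FF.ell Ω (baseDiv D : Divisor Ω (ConstExt k F Ω)) = FF.ell k D from
    this (c + d - Divisor.degree D).toNat D (by omega)
  intro n
  induction n with
  | zero =>
    intro D hD
    rw [hd _ (by rw [degree_baseDiv]; omega), hc D (by omega), degree_baseDiv, genusFF_constExt]
  | succ n ih =>
    intro D hD
    set D' := D + Finsupp.single Q 1
    have hdeg : Divisor.degree D' = Divisor.degree D + 1 := by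
      rw [map_add, Divisor.degree_single, FF.deg_eq_one, Nat.cast_one, mul_one]
    have hD' := ih D' (by push_cast at hD; omega)
    have hle := ell_le_ell_baseDiv (Ω := Ω) D
    by_cases hjump : FF.ell k D' = FF.ell k D
    · have h2 : (baseDiv D : Divisor Ω (ConstExt k F Ω)) ≤ baseDiv D' := by
        rw [← sub_nonneg, ← map_sub]
        exact baseDiv_nonneg (by simp [D'])
      have := FF.ell_mono h2
      omega
    · have hne : riemannRochSpace D ≠ riemannRochSpace D' := fun e => hjump (by
        simp [FF.ell, (LinearEquiv.ofEq _ _ e).finrank_eq])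
      obtain ⟨f, hf, hfn⟩ := SetLike.exists_of_lt (lt_of_le_of_ne
        (FF.riemannRochSpace_mono (FF.le_add_single D Q)) hne)
      have h2 : (baseDiv D : Divisor Ω (ConstExt k F Ω)) ≤ baseDiv D' := by
        rw [← sub_nonneg, ← map_sub]
        exact baseDiv_nonneg (by simp [D'])
      have hlt : riemannRochSpace (baseDiv D : Divisor Ω (ConstExt k F Ω)) <
          riemannRochSpace (baseDiv D') :=
        lt_of_le_of_ne (FF.riemannRochSpace_mono h2) fun e => hfn
          (incl_mem_riemannRochSpace_iff.mp (e ▸ incl_mem_riemannRochSpace (Ω := Ω) hf))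
      have h3 := Submodule.finrank_lt_finrank_of_lt hlt
      have h4 := FF.ell_le_of_le (FF.le_add_single D Q)
      have h5 : (FF.ell Ω (baseDiv D : Divisor Ω (ConstExt k F Ω))) < FF.ell Ω
          (baseDiv D' : Divisor Ω (ConstExt k F Ω)) := by
        unfold FF.ell
        exact_mod_cast h3
      have h6 : Divisor.degree (D + Finsupp.single Q 1) = Divisor.degree D + 1 := hdeg
      have h7 : FF.ell k D' = FF.ell k (D + Finsupp.single Q 1) := rfl
      omega

/-- Riemann–Roch spaces of extended divisors are spanned by those of `F`. -/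
theorem riemannRochSpace_baseDiv (D : Divisor k F) :
    riemannRochSpace (baseDiv D : Divisor Ω (ConstExt k F Ω)) =
      Submodule.span Ω (incl k F Ω '' (riemannRochSpace D : Set F)) := by
  let b := Module.finBasis k (riemannRochSpace D)
  have hli : LinearIndependent Ω
      (fun i => incl k F Ω ((b i : riemannRochSpace D) : F)) := linearIndependent_incl
    (b.linearIndependent.map' (riemannRochSpace D).subtype (Submodule.ker_subtype _))
  symm
  have hle : Submodule.span Ω (incl k F Ω '' (riemannRochSpace D : Set F)) ≤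
      riemannRochSpace (baseDiv D : Divisor Ω (ConstExt k F Ω)) := by
    rw [Submodule.span_le]
    rintro _ ⟨f, hf, rfl⟩
    exact incl_mem_riemannRochSpace hf
  have : FiniteDimensional Ω
      (Submodule.span Ω (incl k F Ω '' (riemannRochSpace D : Set F))) :=
    Submodule.finiteDimensional_of_le hle
  refine Submodule.eq_of_le_of_finrank_le hle ?_
  have h1 := (finrank_span_eq_card hli).ge
  have h2 := ell_baseDiv (Ω := Ω) D
  unfold FF.ell at h2
  have h3 : Module.finrank Ω
      (Submodule.span Ω (Set.range fun i => incl k F Ω ((b i : riemannRochSpace D) : F))) ≤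
      Module.finrank Ω (Submodule.span Ω (incl k F Ω '' (riemannRochSpace D : Set F))) :=
    Submodule.finrank_mono (Submodule.span_mono (by
      rintro _ ⟨i, rfl⟩
      exact ⟨_, (b i).2, rfl⟩))
  have h4 : Fintype.card (Fin (Module.finrank k (riemannRochSpace D))) =
      Module.finrank k (riemannRochSpace D) := Fintype.card_fin _
  omega

/-- A place is determined by its valuation ring on `F` and the values there. -/
theorem place_ext {P P' : Place Ω (ConstExt k F Ω)}
    (hW : ∀ f : F, incl k F Ω f ∈ P.toValuationSubring ↔ incl k F Ω f ∈ P'.toValuationSubring)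
    (hv : ∀ f : F, incl k F Ω f ∈ P.toValuationSubring →
      valAt P (incl k F Ω f) = valAt P' (incl k F Ω f)) : P = P' := by
  rcases ord_incl_eq_zero_or P with hP | ⟨Q, rfl⟩
  swap
  · exact (liftPlace_unique Q fun f => (incl_mem_liftPlace Q f).symm.trans (hW f)).symm
  rcases ord_incl_eq_zero_or P' with hP' | ⟨Q, rfl⟩
  swap
  · exact liftPlace_unique Q fun f => (incl_mem_liftPlace Q f).symm.trans (hW f).symm
  by_contra hne
  obtain ⟨d, hd1, hd⟩ := FiniteFlat.exists_threshold (K := Ω) (F := ConstExt k F Ω)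
  obtain ⟨Q⟩ := FF.exists_place (K := k) (F := F)
  set B : Divisor Ω (ConstExt k F Ω) := baseDiv (Finsupp.single Q (d + 3)) with hB
  have hQ : ∀ {R : Place Ω (ConstExt k F Ω)}, (∀ f, R.ord (incl k F Ω f) = 0) → B R = 0 := by
    intro R hR
    refine baseDiv_apply_of_forall_ne _ fun Q' hQ' => ?_
    obtain ⟨t, -, ht⟩ := FF.exists_uniformizer Q'
    have := hR t
    rw [hQ', ord_liftPlace, ht] at this
    omega
  have hdB : Divisor.degree B = d + 3 := by
    rw [hB, degree_baseDiv, Divisor.degree_single, FF.deg_eq_one, Nat.cast_one, mul_one]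
  obtain ⟨e, he, hen⟩ := FiniteFlat.exists_notMem_ordGe hd
    (D := B - Finsupp.single P 1)
    (by rw [map_sub, hdB, FiniteFlat.degree_single_one]; omega) P'
  have hPv : (B - Finsupp.single P 1 : Divisor Ω (ConstExt k F Ω)) P' = 0 := by
    simp [hQ hP', Finsupp.single_eq_of_ne (Ne.symm hne)]
  rw [hPv] at hen
  have heP : e ∈ FF.ordGe P 1 := by
    simpa [hQ hP] using FF.mem_riemannRochSpace'.mp he P
  have hmem : e ∈ riemannRochSpace B := FF.riemannRochSpace_mono
    (sub_le_self _ (Finsupp.single_nonneg.mpr zero_le_one)) he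
  rw [hB, riemannRochSpace_baseDiv] at hmem
  have key : e ∈ P.toValuationSubring ∧ e ∈ P'.toValuationSubring ∧ valAt P e = valAt P' e := by
    clear he hen heP
    induction hmem using Submodule.span_induction with
    | mem x hx =>
      obtain ⟨f, -, rfl⟩ := hx
      have h1 : incl k F Ω f ∈ P.toValuationSubring := (FF.mem_iff P).mpr (Or.inr (hP f).ge)
      exact ⟨h1, (hW f).mp h1, hv f h1⟩
    | zero =>
      exact ⟨zero_mem _, zero_mem _, by
        rw [valAt_eq_zero_of_mem (zero_mem _), valAt_eq_zero_of_mem (zero_mem _)]⟩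
    | add a b _ _ ha hb =>
      exact ⟨add_mem ha.1 hb.1, add_mem ha.2.1 hb.2.1, by
        rw [valAt_add P ha.1 hb.1, valAt_add P' ha.2.1 hb.2.1, ha.2.2, hb.2.2]⟩
    | smul c a _ ha =>
      rw [Algebra.smul_def]
      exact ⟨mul_mem (P.algebraMap_mem' c) ha.1, mul_mem (P'.algebraMap_mem' c) ha.2.1, by
        rw [valAt_mul P (P.algebraMap_mem' c) ha.1, valAt_mul P' (P'.algebraMap_mem' c) ha.2.1,
          valAt_algebraMap, valAt_algebraMap, ha.2.2]⟩
  refine hen ?_
  rw [neg_zero, zero_add, ← valAt_eq_zero_iff P' key.2.1, ← key.2.2]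
  exact valAt_eq_zero_of_mem heP

end Fermat.Agent.AbVar
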