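import Fermat.Agent.AbVar.Curve.ConstExt
import Fermat.Agent.FF.Along

/-!
# Places of a constant field extension

Every place of `F/k` has exactly one place of `ConstExt k F Ω` above it, with the same orders and
degree; divisors extend.  Values of functions at places.
-/

set_option autoImplicit false
set_option linter.unusedSectionVars false

noncomputable section

open scoped TensorProduct
open AlgebraicCurve IntermediateField

namespace Fermat.Agent.AbVar

open scoped Classical

/-! ### Values -/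

section Value

variable {K E : Type*} [Field K] [Field E] [Algebra K E]

/-- The value of a function at a place, when it exists (otherwise `0`). -/
def valAt (P : Place K E) (e : E) : K :=
  if h : ∃ c : K, e - algebraMap K E c ∈ FF.ordGe P 1 then h.choose else 0

theorem algebraMap_mem_ordGe_one {P : Place K E} {c : K}
    (h : algebraMap K E c ∈ FF.ordGe P 1) : c = 0 := by
  by_contra hc
  have h1 := FF.le_ord_of_mem_ordGe P ((map_ne_zero _).mpr hc) h
  rw [FF.ord_algebraMap] at h1
  omega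

theorem valAt_eq_of_sub_mem {P : Place K E} {e : E} {c : K}
    (h : e - algebraMap K E c ∈ FF.ordGe P 1) : valAt P e = c := by
  have hex : ∃ c : K, e - algebraMap K E c ∈ FF.ordGe P 1 := ⟨c, h⟩
  rw [valAt, dif_pos hex]
  have h1 := sub_mem h hex.choose_spec
  rw [sub_sub_sub_cancel_left, ← map_sub] at h1
  exact sub_eq_zero.mp (algebraMap_mem_ordGe_one h1)

theorem mem_of_mem_ordGe_one {P : Place K E} {e : E} (h : e ∈ FF.ordGe P 1) :
    e ∈ P.toValuationSubring :=
  (FF.mem_ordGe_zero P).mp (FF.ordGe_anti P (by norm_num) h)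

theorem mem_of_sub_mem {P : Place K E} {e : E} {c : K}
    (h : e - algebraMap K E c ∈ FF.ordGe P 1) : e ∈ P.toValuationSubring := by
  simpa using add_mem (mem_of_mem_ordGe_one h) (P.algebraMap_mem' c)

theorem valAt_algebraMap (P : Place K E) (c : K) : valAt P (algebraMap K E c) = c :=
  valAt_eq_of_sub_mem (by rw [sub_self]; exact zero_mem _)

theorem valAt_eq_zero_of_mem {P : Place K E} {e : E} (h : e ∈ FF.ordGe P 1) : valAt P e = 0 :=
  valAt_eq_of_sub_mem (by rwa [map_zero, sub_zero])

variable [IsAlgClosed K] [FF.IsFunctionField K E]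

theorem sub_valAt_mem (P : Place K E) {e : E} (he : e ∈ P.toValuationSubring) :
    e - algebraMap K E (valAt P e) ∈ FF.ordGe P 1 := by
  have := FF.finite_residueField P
  obtain ⟨c, hc⟩ := (IsAlgClosed.algebraMap_bijective_of_isIntegral (k := K)
    (K := P.ResidueField)).2 (IsLocalRing.residue _ ⟨e, he⟩)
  have h : e - algebraMap K E c ∈ FF.ordGe P 1 := by
    refine (FF.residue_eq_zero_iff P
      (a := ⟨e, he⟩ - algebraMap K P.toValuationSubring c)).mp ?_
    rw [map_sub, sub_eq_zero]
    exact hc.symm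
  rwa [valAt_eq_of_sub_mem h]

theorem valAt_add (P : Place K E) {e e' : E} (he : e ∈ P.toValuationSubring)
    (he' : e' ∈ P.toValuationSubring) : valAt P (e + e') = valAt P e + valAt P e' :=
  valAt_eq_of_sub_mem (by
    have h := add_mem (sub_valAt_mem P he) (sub_valAt_mem P he')
    rwa [← add_sub_add_comm, ← map_add] at h)

theorem valAt_mul (P : Place K E) {e e' : E} (he : e ∈ P.toValuationSubring)
    (he' : e' ∈ P.toValuationSubring) : valAt P (e * e') = valAt P e * valAt P e' :=
  valAt_eq_of_sub_mem (by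
    have h1 := FF.mul_mem_ordGe P (sub_valAt_mem P he) ((FF.mem_ordGe_zero P).mpr he')
    have h2 := FF.mul_mem_ordGe P ((FF.mem_ordGe_zero P).mpr (P.algebraMap_mem' (valAt P e)))
      (sub_valAt_mem P he')
    rw [add_zero] at h1
    rw [zero_add] at h2
    convert add_mem h1 h2 using 1
    rw [map_mul]
    ring)

theorem valAt_eq_zero_iff (P : Place K E) {e : E} (he : e ∈ P.toValuationSubring) :
    valAt P e = 0 ↔ e ∈ FF.ordGe P 1 := by
  refine ⟨fun h => ?_, valAt_eq_zero_of_mem⟩
  simpa [h] using sub_valAt_mem P he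

theorem valAt_inv (P : Place K E) {e : E} (he : e ∈ P.toValuationSubring) (h0 : valAt P e ≠ 0) :
    e⁻¹ ∈ P.toValuationSubring ∧ valAt P e⁻¹ = (valAt P e)⁻¹ := by
  have he0 : e ≠ 0 := fun h => h0 (by rw [h, valAt_eq_zero_of_mem (zero_mem _)])
  have hord : P.ord e = 0 := by
    have h1 := FF.ord_nonneg P he
    by_contra h
    exact h0 (valAt_eq_zero_of_mem (FF.mem_ordGe_of_le P (by omega)))
  have hi : e⁻¹ ∈ P.toValuationSubring :=
    (FF.mem_iff_ord P (inv_ne_zero he0)).mpr (by rw [P.ord_inv]; omega)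
  refine ⟨hi, eq_inv_of_mul_eq_one_left ?_⟩
  rw [← valAt_mul P hi he, inv_mul_cancel₀ he0, ← map_one (algebraMap K E), valAt_algebraMap]

end Value

/-! ### Places above places of `F` -/

variable {k F Ω : Type*} [Field k] [Field F] [Field Ω] [Algebra k F] [Algebra k Ω] [IsAlgClosed k]

theorem incl_algebraMap (c : k) :
    incl k F Ω (algebraMap k F c) =
      algebraMap Ω (ConstExt k F Ω) (algebraMap k Ω c) :=
  (incl k F Ω).commutes c

/-- The valuation ring of `F` below a place. -/
def under (P : Place Ω (ConstExt k F Ω)) : ValuationSubring F :=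
  P.toValuationSubring.comap (incl k F Ω).toRingHom

theorem mem_under {P : Place Ω (ConstExt k F Ω)} {f : F} :
    f ∈ under P ↔ incl k F Ω f ∈ P.toValuationSubring := Iff.rfl

theorem algebraMap_mem_under (P : Place Ω (ConstExt k F Ω)) (c : k) :
    algebraMap k F c ∈ under P := by
  rw [mem_under, incl_algebraMap]
  exact P.algebraMap_mem' _

variable [FF.IsFunctionField k F]

theorem exists_pos_forall_ord (P : Place Ω (ConstExt k F Ω)) (h : under P ≠ ⊤) :
    ∃ Q : Place k F, Q.toValuationSubring = under P ∧ ∃ e : ℕ, 0 < e ∧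
      ∀ f, P.ord (incl k F Ω f) = e * Q.ord f := by
  set Q := FF.placeOfValuationSubring (under P) (algebraMap_mem_under P) h
  have hQ : ∀ f : F, f ∈ Q.toValuationSubring ↔ incl k F Ω f ∈ P.toValuationSubring :=
    fun f => Iff.rfl
  have hnn : ∀ f : F, f ≠ 0 → 0 ≤ Q.ord f → 0 ≤ P.ord (incl k F Ω f) := fun f hf h0 =>
    FF.ord_nonneg P ((hQ f).mp ((FF.mem_iff_ord Q hf).mpr h0))
  obtain ⟨t, ht0, ht⟩ := FF.exists_uniformizer Q
  have hpos : 0 < P.ord (incl k F Ω t) := by
    by_contra! hc
    have h1 : incl k F Ω t⁻¹ ∈ P.toValuationSubring := by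
      rw [map_inv₀, FF.mem_iff_ord P (inv_ne_zero ((map_ne_zero _).mpr ht0)), P.ord_inv]
      omega
    have h2 := FF.ord_nonneg Q ((hQ _).mpr h1)
    rw [Q.ord_inv] at h2
    omega
  refine ⟨Q, rfl, (P.ord (incl k F Ω t)).toNat, by omega, fun f => ?_⟩
  rcases eq_or_ne f 0 with rfl | hf
  · simp
  set u := f * (t ^ Q.ord f)⁻¹
  have hu0 : u ≠ 0 := mul_ne_zero hf (inv_ne_zero (zpow_ne_zero _ ht0))
  have hu : Q.ord u = 0 := by
    rw [Q.ord_mul hf (inv_ne_zero (zpow_ne_zero _ ht0)), Q.ord_inv, Q.ord_zpow, ht]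
    ring
  have h1 := hnn u hu0 hu.ge
  have h2 := hnn u⁻¹ (inv_ne_zero hu0) (by rw [Q.ord_inv, hu]; rfl)
  rw [map_inv₀, P.ord_inv] at h2
  have hfu : f = u * t ^ Q.ord f := by rw [inv_mul_cancel_right₀ (zpow_ne_zero _ ht0)]
  conv_lhs => rw [hfu, map_mul, map_zpow₀,
    P.ord_mul ((map_ne_zero _).mpr hu0) (zpow_ne_zero _ ((map_ne_zero _).mpr ht0)), P.ord_zpow]
  rw [show P.ord (incl k F Ω u) = 0 by omega, zero_add, Int.toNat_of_nonneg hpos.le, mul_comm]

theorem exists_place_above (Q : Place k F) :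
    ∃ P : Place Ω (ConstExt k F Ω), P.deg = 1 ∧
      (∀ f, P.ord (incl k F Ω f) = Q.ord f) ∧
      ∀ P' : Place Ω (ConstExt k F Ω), under P' = Q.toValuationSubring → P' = P := by
  obtain ⟨z, hzQ, hzu⟩ := FF.exists_single_pole Q
  have hz : Transcendental k z := FF.transcendental_of_ord_ne_zero Q (by omega)
  have hiz := transcendental_incl (Ω := Ω) hz
  set m := -Q.ord z
  have hm : 0 < m := by omega
  have hdeg : Divisor.degree (FF.poles Ω (incl k F Ω z)) = m := by
    have hpol : FF.poles k z = Finsupp.single Q m := by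
      ext v
      rcases eq_or_ne v Q with rfl | hv
      · simp [m]; omega
      · have := hzu v hv
        simp [Finsupp.single_eq_of_ne hv]; omega
    rw [FF.degree_poles hiz, finrank_adjoin_incl hz, ← FF.degree_poles hz, hpol,
      Divisor.degree_single, FF.deg_eq_one, Nat.cast_one, mul_one]
  have key : ∀ P : Place Ω (ConstExt k F Ω), P.ord (incl k F Ω z) < 0 →
      ∃ e : ℕ, 0 < e ∧ under P = Q.toValuationSubring ∧
        ∀ f, P.ord (incl k F Ω f) = e * Q.ord f := by
    intro P hP
    have hne : under P ≠ ⊤ := fun htop => by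
      have h1 : incl k F Ω z ∈ P.toValuationSubring :=
        mem_under.mp (htop ▸ ValuationSubring.mem_top z)
      have := FF.ord_nonneg P h1
      omega
    obtain ⟨Q', hQ', e, he, hord⟩ := exists_pos_forall_ord P hne
    have hQQ : Q' = Q := by
      by_contra hne'
      have := hzu Q' hne'
      rw [hord] at hP
      have := mul_nonneg (Int.natCast_nonneg e) this
      omega
    subst hQQ
    exact ⟨e, he, hQ'.symm, hord⟩
  obtain ⟨P, hP⟩ := FF.exists_ord_neg_of_transcendental hiz
  have hconv : ∀ P' : Place Ω (ConstExt k F Ω), under P' = Q.toValuationSubring →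
      P'.ord (incl k F Ω z) < 0 := fun P' h => by
    by_contra! hc
    have h1 : z ∈ under P' := mem_under.mpr ((FF.mem_iff P').mpr (Or.inr hc))
    rw [h] at h1
    have := FF.ord_nonneg Q h1
    omega
  obtain ⟨e, he, -, hord⟩ := key P hP
  have hpoles : ∀ P' (e' : ℕ), (∀ f, P'.ord (incl k F Ω f) = e' * Q.ord f) →
      m * e' ≤ FF.poles Ω (incl k F Ω z) P' := fun P' e' h => by
    rw [FF.poles_apply, h]
    exact le_max_of_le_right (le_of_eq (by ring))
  have hle1 : Finsupp.single P (m * e) ≤ FF.poles Ω (incl k F Ω z) :=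
    Finsupp.le_def.mpr fun v => by
      rcases eq_or_ne v P with rfl | hv
      · rw [Finsupp.single_eq_same]; exact hpoles v e hord
      · rw [Finsupp.single_eq_of_ne hv]; exact Finsupp.le_def.mp (FF.poles_nonneg _) v
  have hdle := FF.degree_mono hle1
  rw [Divisor.degree_single, hdeg] at hdle
  have hdp : 1 ≤ P.deg := FF.deg_pos P
  have he1 : e = 1 ∧ P.deg = 1 := by
    have h1 : m * ((e * P.deg : ℕ) : ℤ) ≤ m * 1 := by push_cast; linarith
    have h2 := le_of_mul_le_mul_left h1 hm
    have h3 : e * P.deg ≤ 1 := by exact_mod_cast h2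
    constructor <;> nlinarith
  obtain ⟨rfl, hP1⟩ := he1
  refine ⟨P, hP1, fun f => by rw [hord, Nat.cast_one, one_mul], fun P' hP' => ?_⟩
  by_contra hne
  obtain ⟨e', he', -, hord'⟩ := key P' (hconv P' hP')
  have hle2 : Finsupp.single P (m * (1 : ℕ)) + Finsupp.single P' (m * e') ≤
      FF.poles Ω (incl k F Ω z) := Finsupp.le_def.mpr fun v => by
    rw [Finsupp.add_apply]
    rcases eq_or_ne v P with rfl | hv
    · rw [Finsupp.single_eq_same, Finsupp.single_eq_of_ne (Ne.symm hne), add_zero]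
      exact hpoles v 1 hord
    · rw [Finsupp.single_eq_of_ne hv, zero_add]
      rcases eq_or_ne v P' with rfl | hv'
      · rw [Finsupp.single_eq_same]; exact hpoles v e' hord'
      · rw [Finsupp.single_eq_of_ne hv']; exact Finsupp.le_def.mp (FF.poles_nonneg _) v
  have hdle2 := FF.degree_mono hle2
  rw [map_add, Divisor.degree_single, Divisor.degree_single, hdeg, hP1] at hdle2
  have hp' : (1 : ℤ) ≤ P'.deg := by exact_mod_cast FF.deg_pos P'
  have he'' : (1 : ℤ) ≤ e' := by exact_mod_cast he'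
  have : m ≤ m * e' * P'.deg :=
    (le_mul_of_one_le_right hm.le he'').trans (le_mul_of_one_le_right (by positivity) hp')
  push_cast at hdle2
  linarith

/-- The place above a place of `F`. -/
def liftPlace (Q : Place k F) : Place Ω (ConstExt k F Ω) := (exists_place_above Q).choose

theorem deg_liftPlace (Q : Place k F) : (liftPlace Q : Place Ω (ConstExt k F Ω)).deg = 1 :=
  (exists_place_above Q).choose_spec.1

theorem ord_liftPlace (Q : Place k F) (f : F) :
    (liftPlace Q : Place Ω (ConstExt k F Ω)).ord (incl k F Ω f) = Q.ord f :=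
  (exists_place_above Q).choose_spec.2.1 f

theorem incl_mem_liftPlace (Q : Place k F) (f : F) :
    incl k F Ω f ∈ (liftPlace Q : Place Ω (ConstExt k F Ω)).toValuationSubring ↔
      f ∈ Q.toValuationSubring := by
  rw [FF.mem_iff, FF.mem_iff, ord_liftPlace, map_eq_zero]

theorem liftPlace_unique {P : Place Ω (ConstExt k F Ω)} (Q : Place k F)
    (h : ∀ f : F, f ∈ Q.toValuationSubring ↔ incl k F Ω f ∈ P.toValuationSubring) :
    P = liftPlace Q :=
  (exists_place_above Q).choose_spec.2.2 P (SetLike.ext fun f => (h f).symm)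

theorem liftPlace_injective :
    Function.Injective (liftPlace : Place k F → Place Ω (ConstExt k F Ω)) := fun Q Q' h => by
  refine Place.ext (SetLike.ext fun f => ?_)
  rw [← incl_mem_liftPlace (Ω := Ω), h, incl_mem_liftPlace]

theorem ord_incl_eq_zero_or (P : Place Ω (ConstExt k F Ω)) :
    (∀ f : F, P.ord (incl k F Ω f) = 0) ∨ ∃ Q : Place k F, P = liftPlace Q := by
  by_cases h : under P = ⊤
  · left
    intro f
    have h1 : ∀ g : F, incl k F Ω g ∈ P.toValuationSubring := fun g =>
      mem_under.mp (h ▸ ValuationSubring.mem_top g)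
    have h2 := FF.ord_nonneg P (h1 f)
    have h3 := FF.ord_nonneg P (h1 f⁻¹)
    rw [map_inv₀, P.ord_inv] at h3
    omega
  · obtain ⟨Q, hQ, -⟩ := exists_pos_forall_ord P h
    exact Or.inr ⟨Q, liftPlace_unique Q fun f => by rw [hQ]; rfl⟩

/-- The extension of divisors. -/
def baseDiv : Divisor k F →+ Divisor Ω (ConstExt k F Ω) :=
  Finsupp.mapDomain.addMonoidHom liftPlace

theorem baseDiv_single (Q : Place k F) (n : ℤ) :
    (baseDiv (Finsupp.single Q n) : Divisor Ω (ConstExt k F Ω)) =
      Finsupp.single (liftPlace Q) n := Finsupp.mapDomain_single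

theorem baseDiv_liftPlace (D : Divisor k F) (Q : Place k F) :
    (baseDiv D : Divisor Ω (ConstExt k F Ω)) (liftPlace Q) = D Q :=
  Finsupp.mapDomain_apply liftPlace_injective D Q

theorem baseDiv_apply_of_forall_ne (D : Divisor k F) {P : Place Ω (ConstExt k F Ω)}
    (h : ∀ Q : Place k F, P ≠ liftPlace Q) : (baseDiv D : Divisor Ω (ConstExt k F Ω)) P = 0 :=
  Finsupp.mapDomain_of_notMem_range D P fun ⟨Q, hQ⟩ => h Q hQ.symm

theorem baseDiv_nonneg {D : Divisor k F} (hD : 0 ≤ D) :
    (0 : Divisor Ω (ConstExt k F Ω)) ≤ baseDiv D := Finsupp.le_def.mpr fun P => by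
  by_cases h : ∃ Q : Place k F, P = liftPlace Q
  · obtain ⟨Q, rfl⟩ := h
    rw [baseDiv_liftPlace]
    exact Finsupp.le_def.mp hD Q
  · rw [baseDiv_apply_of_forall_ne D (fun Q hQ => h ⟨Q, hQ⟩)]
    rfl

theorem degree_baseDiv (D : Divisor k F) :
    Divisor.degree (baseDiv D : Divisor Ω (ConstExt k F Ω)) = Divisor.degree D := by
  induction D using Finsupp.induction with
  | zero => simp
  | single_add Q n E _ _ ih =>
    rw [map_add, map_add, map_add, ih, baseDiv_single, Divisor.degree_single, Divisor.degree_single,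
      deg_liftPlace, FF.deg_eq_one]

theorem poles_incl (f : F) : FF.poles Ω (incl k F Ω f) = baseDiv (FF.poles k f) := by
  ext P
  by_cases h : ∃ Q : Place k F, P = liftPlace Q
  · obtain ⟨Q, rfl⟩ := h
    rw [baseDiv_liftPlace, FF.poles_apply, FF.poles_apply, ord_liftPlace]
  · rw [baseDiv_apply_of_forall_ne _ (fun Q hQ => h ⟨Q, hQ⟩), FF.poles_apply,
      ((ord_incl_eq_zero_or P).resolve_right h) f]
    rfl

theorem incl_mem_riemannRochSpace {D : Divisor k F} {f : F} (hf : f ∈ riemannRochSpace D) :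
    incl k F Ω f ∈ riemannRochSpace (baseDiv D : Divisor Ω (ConstExt k F Ω)) := by
  rw [FF.mem_riemannRochSpace'] at hf ⊢
  intro P
  by_cases h : ∃ Q : Place k F, P = liftPlace Q
  · obtain ⟨Q, rfl⟩ := h
    rw [baseDiv_liftPlace]
    rcases (FF.mem_ordGe Q).mp (hf Q) with h0 | h0
    · rw [h0, map_zero]; exact zero_mem _
    · exact FF.mem_ordGe_of_le _ (by rwa [ord_liftPlace])
  · rw [baseDiv_apply_of_forall_ne _ (fun Q hQ => h ⟨Q, hQ⟩)]
    exact FF.mem_ordGe_of_le _ (le_of_eq (((ord_incl_eq_zero_or P).resolve_right h) f).symm)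

theorem ell_le_ell_baseDiv (D : Divisor k F) :
    FF.ell k D ≤ FF.ell Ω (baseDiv D : Divisor Ω (ConstExt k F Ω)) := by
  have b := Module.finBasis k (riemannRochSpace D)
  have h1 := linearIndependent_incl (Ω := Ω)
    (b.linearIndependent.map' (riemannRochSpace D).subtype (Submodule.ker_subtype _))
  have h2 : LinearIndependent Ω fun i =>
      (⟨incl k F Ω (b i), incl_mem_riemannRochSpace (b i).2⟩ :
        riemannRochSpace (baseDiv D : Divisor Ω (ConstExt k F Ω))) :=
    LinearIndependent.of_comp (Submodule.subtype _) h1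
  unfold FF.ell
  exact_mod_cast (by simpa using h2.fintype_card_le_finrank)

theorem incl_sub_mem_liftPlace {Q : Place k F} {f : F} {c : k}
    (h : f - algebraMap k F c ∈ FF.ordGe Q 1) :
    incl k F Ω f - algebraMap Ω (ConstExt k F Ω) (algebraMap k Ω c) ∈
      FF.ordGe (liftPlace Q) 1 := by
  rw [← incl_algebraMap, ← map_sub]
  rcases (FF.mem_ordGe Q).mp h with h0 | h0
  · rw [h0, map_zero]; exact zero_mem _
  · exact FF.mem_ordGe_of_le _ (by rwa [ord_liftPlace])

theorem valAt_incl_liftPlace (Q : Place k F) {f : F} (hf : f ∈ Q.toValuationSubring) :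
    valAt (liftPlace Q : Place Ω (ConstExt k F Ω)) (incl k F Ω f) =
      algebraMap k Ω (valAt Q f) :=
  valAt_eq_of_sub_mem (incl_sub_mem_liftPlace (sub_valAt_mem Q hf))

/-- A place from a valuation ring of `F` and values on it. -/
theorem exists_place_of_hom (W : ValuationSubring F) (hk : ∀ c : k, algebraMap k F c ∈ W)
    (ψ : W →+* Ω) (hψ : ∀ c : k, ψ ⟨algebraMap k F c, hk c⟩ = algebraMap k Ω c)
    (hker : ∀ x : W, ψ x = 0 ↔ x ∈ IsLocalRing.maximalIdeal W) :
    ∃ P : Place Ω (ConstExt k F Ω),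
      ∀ f : F, (incl k F Ω f ∈ P.toValuationSubring ↔ f ∈ W) ∧
        ∀ h : f ∈ W, incl k F Ω f - algebraMap Ω (ConstExt k F Ω) (ψ ⟨f, h⟩) ∈ FF.ordGe P 1 := by
  by_cases hW : W = ⊤
  · subst hW
    let ψ' : F →ₐ[k] Ω :=
      { toFun := fun f => ψ ⟨f, ValuationSubring.mem_top f⟩
        map_one' := map_one ψ
        map_mul' := fun a b => map_mul ψ ⟨a, _⟩ ⟨b, _⟩
        map_zero' := map_zero ψ
        map_add' := fun a b => map_add ψ ⟨a, _⟩ ⟨b, _⟩
        commutes' := hψ }
    let Ψ := Algebra.TensorProduct.productMap ψ' (AlgHom.id k Ω)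
    let R : Subalgebra Ω (ConstExt k F Ω) :=
      { (emb k F Ω).range.toSubsemiring with
        algebraMap_mem' := fun c => ⟨1 ⊗ₜ c, by simp [emb_tmul]⟩ }
    let I : Ideal R :=
      { carrier := {r | ∃ z, Ψ z = 0 ∧ emb k F Ω z = r}
        zero_mem' := ⟨0, map_zero _, map_zero _⟩
        add_mem' := by
          rintro r s ⟨z, hz, hzr⟩ ⟨w, hw, hws⟩
          exact ⟨z + w, by rw [map_add, hz, hw, add_zero], by rw [map_add, hzr, hws]; rfl⟩
        smul_mem' := by
          rintro ⟨c, y, rfl⟩ r ⟨z, hz, hzr⟩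
          exact ⟨y * z, by rw [map_mul, hz, mul_zero], by rw [map_mul, hzr]; rfl⟩ }
    have hI : I ≠ ⊤ := fun htop => by
      obtain ⟨z, hz, hz1⟩ := show (1 : R) ∈ I from htop ▸ Submodule.mem_top
      have h1 : z = 1 := emb_injective (by rw [hz1, map_one]; rfl)
      rw [h1, map_one] at hz
      exact one_ne_zero hz
    have hsub : ∀ f : F, ∃ h, (⟨incl k F Ω f - algebraMap Ω (ConstExt k F Ω) (ψ' f), h⟩ : R) ∈ I :=
      fun f => by
        have he : emb k F Ω (f ⊗ₜ 1 - 1 ⊗ₜ ψ' f) =
            incl k F Ω f - algebraMap Ω (ConstExt k F Ω) (ψ' f) := by simp [emb_tmul]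
        exact ⟨⟨_, he⟩, _, by simp [Ψ, Algebra.TensorProduct.productMap_apply_tmul], he⟩
    have hI0 : I ≠ ⊥ := fun hbot => by
      obtain ⟨x, hx, -⟩ := FF.IsFunctionField.exists_finite (K := k) (F := F)
      obtain ⟨h, hmem⟩ := hsub x
      rw [hbot, Submodule.mem_bot] at hmem
      refine transcendental_incl (Ω := Ω) hx ?_
      rw [sub_eq_zero.mp (congrArg Subtype.val hmem)]
      exact isAlgebraic_algebraMap _
    obtain ⟨P, hR, hP⟩ := FF.exists_place_of_ideal R I hI hI0
    refine ⟨P, fun f => ⟨iff_of_true (hR _ ⟨f ⊗ₜ 1, by simp [emb_tmul]⟩)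
      (ValuationSubring.mem_top f), fun h => ?_⟩⟩
    obtain ⟨h', hmem⟩ := hsub f
    exact hP _ hmem
  · let Q := FF.placeOfValuationSubring W hk hW
    refine ⟨liftPlace Q, fun f => ⟨incl_mem_liftPlace Q f, fun h => ?_⟩⟩
    have hv := sub_valAt_mem Q (e := f) h
    have hval : ψ ⟨f, h⟩ = algebraMap k Ω (valAt Q f) := by
      have h1 : (⟨f, h⟩ - ⟨algebraMap k F (valAt Q f), hk _⟩ : W) ∈ IsLocalRing.maximalIdeal W := by
        have h2 := (FF.residue_eq_zero_iff Q
          (a := ⟨f, h⟩ - algebraMap k Q.toValuationSubring (valAt Q f))).mpr hv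
        rwa [IsLocalRing.residue_eq_zero_iff] at h2
      rwa [← hker, map_sub, hψ, sub_eq_zero] at h1
    rw [hval]
    exact incl_sub_mem_liftPlace hv

end Fermat.Agent.AbVar
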