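import Fermat.Agent.AbVar.Curve.ConstExt
import Mathlib.RingTheory.Valuation.ValuationSubring

/-!
# Gauss reduction of a constant field extension

For a valuation ring `V ⊇ k` of `Ω` and a surjection `r : V →ₐ[k] κ` onto a field, the elements
`a / s` with `a, s ∈ F ⊗ V` and `s` reducing to a nonzero element form a valuation ring `gauss r`
of `ConstExt k F Ω`, which reduces onto `ConstExt k F κ`.
-/

set_option autoImplicit false
set_option linter.unusedSectionVars false

noncomputable section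

open scoped TensorProduct
open AlgebraicCurve IsLocalRing

namespace Fermat.Agent.AbVar

open scoped Classical

/-- The residue field of a valuation ring of an algebraically closed field is algebraically
closed. -/
theorem residueField_isAlgClosed' {Ω : Type*} [Field Ω] [IsAlgClosed Ω] (V : ValuationSubring Ω) :
    IsAlgClosed (ResidueField V) := by
  refine IsAlgClosed.of_exists_root _ fun p hp hirr => ?_
  obtain ⟨P, hP, hPdeg, hPmon⟩ := Polynomial.lifts_and_degree_eq_and_monic
    (f := residue V) ((Polynomial.map_surjective _ residue_surjective) p) hp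
  have hdeg : (P.map (algebraMap V Ω)).degree ≠ 0 := by
    rw [hPmon.degree_map, hPdeg]
    exact hirr.degree_pos.ne'
  obtain ⟨x, hx⟩ := IsAlgClosed.exists_root _ hdeg
  have hxint : IsIntegral V x :=
    ⟨P, hPmon, by rwa [Polynomial.IsRoot, Polynomial.eval_map] at hx⟩
  obtain ⟨y, rfl⟩ := (IsIntegrallyClosed.isIntegral_iff (R := V) (K := Ω)).mp hxint
  refine ⟨residue V y, ?_⟩
  have hy : P.eval y = 0 := by
    apply IsFractionRing.injective V Ω
    rw [map_zero, ← Polynomial.eval₂_at_apply, ← Polynomial.eval_map]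
    exact hx
  rw [← hP, Polynomial.eval_map, Polynomial.eval₂_at_apply, hy, map_zero]

variable {k F Ω κ : Type*} [Field k] [Field F] [Field Ω] [Field κ] [Algebra k F] [Algebra k Ω]
  [Algebra k κ] [IsAlgClosed k] {V : ValuationSubring Ω} [Algebra k V] [IsScalarTower k V Ω]
  (r : V →ₐ[k] κ)

section Residue

variable {r} (hr : Function.Surjective r)
include hr

theorem res_eq_zero_iff {a : V} : r a = 0 ↔ a ∈ maximalIdeal V := by
  have h := eq_maximalIdeal (RingHom.ker_isMaximal_of_surjective r.toRingHom hr)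
  rw [← h]
  rfl

theorem res_ne_zero_iff {a : V} : r a ≠ 0 ↔ IsUnit a := by
  rw [Ne, res_eq_zero_iff hr, mem_maximalIdeal, mem_nonunits_iff, not_not]

theorem res_inv_of_notMem {c : Ω} (hc : c ∉ V) :
    ∃ d : V, (d : Ω) = c⁻¹ ∧ r d = 0 := by
  refine ⟨⟨c⁻¹, (V.mem_or_inv_mem c).resolve_left hc⟩, rfl, (res_eq_zero_iff hr).mpr ?_⟩
  rw [← ValuationSubring.coe_mem_nonunits_iff]
  exact V.inv_mem_nonunits_iff.mpr (Or.inr hc)

end Residue

section Lattice

variable (k F V)

/-- Integral tensors, in the big field. -/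
def toBig : F ⊗[k] V →ₐ[k] ConstExt k F Ω :=
  (emb k F Ω).comp (Algebra.TensorProduct.map (AlgHom.id k F) (IsScalarTower.toAlgHom k V Ω))

variable {k F V}

/-- Integral tensors, reduced. -/
def toRed : F ⊗[k] V →ₐ[k] ConstExt k F κ :=
  (emb k F κ).comp (Algebra.TensorProduct.map (AlgHom.id k F) r)

theorem toBig_tmul (f : F) (a : V) :
    toBig k F V (f ⊗ₜ a) = incl k F Ω f * algebraMap Ω (ConstExt k F Ω) (a : Ω) :=
  emb_tmul f (a : Ω)

theorem toRed_tmul (f : F) (a : V) :
    toRed r (f ⊗ₜ[k] a) = incl k F κ f * algebraMap κ (ConstExt k F κ) (r a) :=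
  emb_tmul f (r a)

theorem toBig_injective : Function.Injective (toBig k F V) := by
  refine emb_injective.comp ?_
  exact Module.Flat.lTensor_preserves_injective_linearMap
    (M := F) (IsScalarTower.toAlgHom k V Ω).toLinearMap Subtype.val_injective

theorem toBig_ne_zero {s : F ⊗[k] V} (hs : toRed r s ≠ 0) : toBig k F V s ≠ 0 := fun h => by
  rw [← map_zero (toBig k F V)] at h
  exact hs (by rw [toBig_injective h, map_zero])

theorem toRed_surjective_range (hr : Function.Surjective r) (z : F ⊗[k] κ) :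
    ∃ a : F ⊗[k] V, toRed r a = emb k F κ z := by
  induction z using TensorProduct.induction_on with
  | zero => exact ⟨0, by simp⟩
  | tmul f c =>
    obtain ⟨a, rfl⟩ := hr c
    exact ⟨f ⊗ₜ a, by rw [toRed_tmul, emb_tmul]⟩
  | add x y hx hy =>
    obtain ⟨a, ha⟩ := hx
    obtain ⟨b, hb⟩ := hy
    exact ⟨a + b, by rw [map_add, map_add, ha, hb]⟩

/-- Every nonzero tensor is a scalar times a primitive one. -/
theorem exists_primitive_tensor {z : F ⊗[k] Ω} (hz : z ≠ 0) :
    ∃ c : Ω, c ≠ 0 ∧ ∃ z₀ : F ⊗[k] V, toRed r z₀ ≠ 0 ∧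
      emb k F Ω z = algebraMap Ω (ConstExt k F Ω) c * toBig k F V z₀ := by
  let b := Module.Basis.ofVectorSpace k F
  let e := TensorProduct.equivFinsuppOfBasisLeft (R := k) (N := Ω) b
  set s := (e z).support with hs
  obtain ⟨i₀, hi₀, hmax⟩ := s.exists_max_image (fun i => V.valuation (e z i))
    (Finsupp.support_nonempty_iff.mpr (e.map_ne_zero_iff.mpr hz))
  have hc : e z i₀ ≠ 0 := Finsupp.mem_support_iff.mp hi₀
  have hA : ∀ i ∈ s, e z i / e z i₀ ∈ V := fun i hi => by
    rw [← V.valuation_le_one_iff, map_div₀,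
      div_le_one₀ (zero_lt_iff.mpr ((Valuation.ne_zero_iff _).mpr hc))]
    exact hmax i hi
  refine ⟨e z i₀, hc, ∑ i ∈ s.attach, b i.1 ⊗ₜ ⟨_, hA i.1 i.2⟩, fun h => ?_, ?_⟩
  · have hli := linearIndependent_incl (Ω := κ)
      (b.linearIndependent.comp (fun i : s => i.1) Subtype.val_injective)
    have h1 : ∑ i : s, r ⟨_, hA i.1 i.2⟩ • incl k F κ (b i.1) = 0 := by
      rw [← h, map_sum, ← Finset.univ_eq_attach]
      exact Finset.sum_congr rfl fun i _ => by rw [toRed_tmul, Algebra.smul_def, mul_comm]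
    have h2 := Fintype.linearIndependent_iff.mp hli (fun i => r ⟨_, hA i.1 i.2⟩) h1 ⟨i₀, hi₀⟩
    have h3 : (⟨_, hA i₀ hi₀⟩ : V) = 1 := Subtype.ext (div_self hc)
    simp only at h2
    rw [h3, map_one] at h2
    exact one_ne_zero h2
  · rw [map_sum, Finset.mul_sum]
    conv_lhs => rw [← e.symm_apply_apply z, TensorProduct.equivFinsuppOfBasisLeft_symm_apply,
      Finsupp.sum, map_sum]
    rw [← Finset.sum_attach s]
    refine Finset.sum_congr rfl fun i _ => ?_
    rw [emb_tmul, toBig_tmul, mul_left_comm, ← map_mul, mul_div_cancel₀ _ hc]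

/-- The Gauss valuation ring. -/
def gauss : ValuationSubring (ConstExt k F Ω) where
  carrier := {e | ∃ a s : F ⊗[k] V, toRed r s ≠ 0 ∧ e * toBig k F V s = toBig k F V a}
  zero_mem' := ⟨0, 1, by simp, by simp⟩
  one_mem' := ⟨1, 1, by simp, by simp⟩
  mul_mem' := by
    rintro x y ⟨a, s, hs, hx⟩ ⟨b, t, ht, hy⟩
    refine ⟨a * b, s * t, by rw [map_mul]; exact mul_ne_zero hs ht, ?_⟩
    rw [map_mul, map_mul, ← hx, ← hy]
    ring
  add_mem' := by
    rintro x y ⟨a, s, hs, hx⟩ ⟨b, t, ht, hy⟩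
    refine ⟨a * t + b * s, s * t, by rw [map_mul]; exact mul_ne_zero hs ht, ?_⟩
    rw [map_mul, map_add, map_mul, map_mul, ← hx, ← hy]
    ring
  neg_mem' := by
    rintro x ⟨a, s, hs, hx⟩
    exact ⟨-a, s, hs, by rw [map_neg, neg_mul, hx]⟩
  mem_or_inv_mem' := fun x => by
    obtain ⟨p, q, hq, rfl⟩ := exists_div x
    rcases eq_or_ne p 0 with rfl | hp
    · left; exact ⟨0, 1, by simp, by simp⟩
    obtain ⟨c, hc, A, hA, hpA⟩ := exists_primitive_tensor r hp
    obtain ⟨d, hd, B, hB, hqB⟩ := exists_primitive_tensor r hq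
    rw [hpA, hqB]
    rcases V.mem_or_inv_mem (c / d) with h | h
    · left
      refine ⟨(1 ⊗ₜ ⟨_, h⟩) * A, B, hB, ?_⟩
      rw [map_mul, toBig_tmul, map_one, one_mul, map_div₀]
      field_simp [toBig_ne_zero r hB, (map_ne_zero (algebraMap Ω (ConstExt k F Ω))).mpr hd]
    · right
      refine ⟨(1 ⊗ₜ ⟨_, h⟩) * B, A, hA, ?_⟩
      rw [map_mul, toBig_tmul, map_one, one_mul, inv_div, map_inv₀, map_div₀]
      field_simp [toBig_ne_zero r hA, (map_ne_zero (algebraMap Ω (ConstExt k F Ω))).mpr hc]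

theorem mem_gauss {e : ConstExt k F Ω} :
    e ∈ gauss r ↔ ∃ a s : F ⊗[k] V, toRed r s ≠ 0 ∧ e * toBig k F V s = toBig k F V a := Iff.rfl

/-- The underlying function of `gaussRed`. -/
def gaussRedFun (g : (gauss r : ValuationSubring (ConstExt k F Ω))) : ConstExt k F κ :=
  toRed r (mem_gauss r |>.mp g.2).choose /
    toRed r (mem_gauss r |>.mp g.2).choose_spec.choose

theorem gaussRedFun_eq (g : (gauss r : ValuationSubring (ConstExt k F Ω))) {a s : F ⊗[k] V}
    (hs : toRed r s ≠ 0) (h : (g : ConstExt k F Ω) * toBig k F V s = toBig k F V a) :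
    gaussRedFun r g = toRed r a / toRed r s := by
  obtain ⟨hs', h'⟩ := (mem_gauss r |>.mp g.2).choose_spec.choose_spec
  unfold gaussRedFun
  set a' := (mem_gauss r |>.mp g.2).choose
  set s' := (mem_gauss r |>.mp g.2).choose_spec.choose
  have he : a' * s = a * s' := toBig_injective (by
    rw [map_mul, map_mul, ← h, ← h']; ring)
  rw [div_eq_div_iff hs' hs, ← map_mul, ← map_mul, he]

/-- The Gauss reduction. -/
def gaussRed : (gauss r : ValuationSubring (ConstExt k F Ω)) →+* ConstExt k F κ where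
  toFun := gaussRedFun r
  map_one' := by rw [gaussRedFun_eq r 1 (a := 1) (s := 1) (by simp) (by simp)]; simp
  map_zero' := by rw [gaussRedFun_eq r 0 (a := 0) (s := 1) (by simp) (by simp)]; simp
  map_mul' := fun g g' => by
    obtain ⟨a, s, hs, h⟩ := g.2
    obtain ⟨b, t, ht, h'⟩ := g'.2
    rw [gaussRedFun_eq r g hs h, gaussRedFun_eq r g' ht h',
      gaussRedFun_eq r (g * g') (a := a * b) (s := s * t) (by rw [map_mul]; exact mul_ne_zero hs ht)
        (by push_cast; rw [map_mul, map_mul, ← h, ← h']; ring)]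
    rw [map_mul, map_mul, div_mul_div_comm]
  map_add' := fun g g' => by
    obtain ⟨a, s, hs, h⟩ := g.2
    obtain ⟨b, t, ht, h'⟩ := g'.2
    rw [gaussRedFun_eq r g hs h, gaussRedFun_eq r g' ht h',
      gaussRedFun_eq r (g + g') (a := a * t + b * s) (s := s * t)
        (by rw [map_mul]; exact mul_ne_zero hs ht)
        (by push_cast; rw [map_mul, map_add, map_mul, map_mul, ← h, ← h']; ring)]
    rw [map_mul, map_add, map_mul, map_mul, div_add_div _ _ hs ht, mul_comm (toRed r b)]

theorem gaussRed_eq (g : (gauss r : ValuationSubring (ConstExt k F Ω))) {a s : F ⊗[k] V}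
    (hs : toRed r s ≠ 0) (h : (g : ConstExt k F Ω) * toBig k F V s = toBig k F V a) :
    gaussRed r g = toRed r a / toRed r s :=
  gaussRedFun_eq r g hs h

theorem toBig_mem_gauss (a : F ⊗[k] V) : toBig k F V a ∈ gauss r :=
  ⟨a, 1, by simp, by simp⟩

theorem gaussRed_toBig (a : F ⊗[k] V) :
    gaussRed r ⟨_, toBig_mem_gauss r a⟩ = toRed r a := by
  rw [gaussRed_eq r _ (a := a) (s := 1) (by simp) (by simp)]
  simp

theorem incl_mem_gauss (f : F) : incl k F Ω f ∈ gauss r :=
  ⟨f ⊗ₜ 1, 1, by simp, by simp [toBig_tmul]⟩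

theorem gaussRed_incl (f : F) :
    gaussRed r ⟨incl k F Ω f, incl_mem_gauss r f⟩ = incl k F κ f := by
  rw [gaussRed_eq r _ (a := f ⊗ₜ 1) (s := 1) (by simp) (by simp [toBig_tmul])]
  simp [toRed_tmul]

theorem algebraMap_mem_gauss {c : Ω} (hc : c ∈ V) :
    algebraMap Ω (ConstExt k F Ω) c ∈ gauss r :=
  ⟨1 ⊗ₜ ⟨c, hc⟩, 1, by simp, by simp [toBig_tmul]⟩

theorem gaussRed_algebraMap (a : V) :
    gaussRed r ⟨algebraMap Ω (ConstExt k F Ω) (a : Ω), algebraMap_mem_gauss r a.2⟩ =
      algebraMap κ (ConstExt k F κ) (r a) := by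
  rw [gaussRed_eq r _ (a := 1 ⊗ₜ a) (s := 1) (by simp) (by simp [toBig_tmul])]
  simp [toRed_tmul]

theorem algebraMap_mem_gauss_iff (hr : Function.Surjective r) {c : Ω} :
    algebraMap Ω (ConstExt k F Ω) c ∈ (gauss r : ValuationSubring (ConstExt k F Ω)) ↔ c ∈ V := by
  refine ⟨fun h => ?_, algebraMap_mem_gauss r⟩
  by_contra hc
  obtain ⟨d, hd, hd0⟩ := res_inv_of_notMem hr hc
  obtain ⟨a, s, hs, h⟩ := h
  have hc0 : c ≠ 0 := fun e => hc (e ▸ V.zero_mem)
  have h1 : s = (1 ⊗ₜ d) * a := toBig_injective (by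
    rw [map_mul, toBig_tmul, map_one, one_mul, ← h, ← mul_assoc, ← map_mul, hd,
      inv_mul_cancel₀ hc0, map_one, one_mul])
  exact hs (by rw [h1, map_mul, toRed_tmul, hd0, map_zero, mul_zero, zero_mul])

/-- Every nonzero function is a scalar times a Gauss unit. -/
theorem exists_primitive {e : ConstExt k F Ω} (he : e ≠ 0) :
    ∃ c : Ω, c ≠ 0 ∧ ∃ g : (gauss r : ValuationSubring (ConstExt k F Ω)),
      gaussRed r g ≠ 0 ∧ e = algebraMap Ω (ConstExt k F Ω) c * g := by
  obtain ⟨p, q, hq, rfl⟩ := exists_div e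
  have hp : p ≠ 0 := fun h => he (by rw [h, map_zero, zero_div])
  obtain ⟨c, hc, A, hA, hpA⟩ := exists_primitive_tensor r hp
  obtain ⟨d, hd, B, hB, hqB⟩ := exists_primitive_tensor r hq
  have hB0 := toBig_ne_zero r hB
  have hm : toBig k F V A / toBig k F V B * toBig k F V B = toBig k F V A :=
    div_mul_cancel₀ _ hB0
  refine ⟨c / d, div_ne_zero hc hd, ⟨toBig k F V A / toBig k F V B, A, B, hB, hm⟩, ?_, ?_⟩
  · rw [gaussRed_eq r _ hB hm]
    exact div_ne_zero hA hB
  · rw [hpA, hqB, map_div₀]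
    exact mul_div_mul_comm _ _ _ _

theorem gaussRed_eq_zero_iff (g : (gauss r : ValuationSubring (ConstExt k F Ω))) :
    gaussRed r g = 0 ↔ g ∈ maximalIdeal _ := by
  rw [mem_maximalIdeal, mem_nonunits_iff]
  constructor
  · intro h hu
    exact (hu.map (gaussRed r)).ne_zero h
  · intro h
    by_contra h0
    obtain ⟨a, s, hs, he⟩ := g.2
    rw [gaussRed_eq r g hs he, _root_.div_eq_zero_iff, not_or] at h0
    have ha0 := toBig_ne_zero r h0.1
    refine h (IsUnit.of_mul_eq_one ⟨toBig k F V s / toBig k F V a, s, a, h0.1,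
      div_mul_cancel₀ _ ha0⟩ (Subtype.ext ?_))
    show (g : ConstExt k F Ω) * (toBig k F V s / toBig k F V a) = 1
    rw [mul_div_assoc', he, div_self ha0]

theorem gaussRed_surjective (hr : Function.Surjective r) :
    Function.Surjective (gaussRed r :
      (gauss r : ValuationSubring (ConstExt k F Ω)) →+* ConstExt k F κ) := fun y => by
  obtain ⟨p, q, hq, rfl⟩ := exists_div y
  obtain ⟨a, ha⟩ := toRed_surjective_range r hr p
  obtain ⟨s, hs⟩ := toRed_surjective_range r hr q
  have hs0 : toRed r s ≠ 0 := by rw [hs]; exact emb_ne_zero hq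
  have hm : toBig k F V a / toBig k F V s * toBig k F V s = toBig k F V a :=
    div_mul_cancel₀ _ (toBig_ne_zero r hs0)
  exact ⟨⟨_, a, s, hs0, hm⟩, by rw [gaussRed_eq r _ hs0 hm, ha, hs]⟩

theorem gaussRed_smul (a : V) (g : (gauss r : ValuationSubring (ConstExt k F Ω))) :
    gaussRed r (⟨_, algebraMap_mem_gauss r a.2⟩ * g) = r a • gaussRed r g := by
  rw [map_mul, gaussRed_algebraMap, Algebra.smul_def]

end Lattice

end Fermat.Agent.AbVar
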