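import Fermat.Agent.AbVar.Curve.Places
import Fermat.Agent.AbVar.Curve.Reduce

/-!
# Reduction of places of a constant field extension

The place `red r hr P` of `ConstExt k F κ` is given by the values at `P`: a function of `F` is
regular there iff it is regular at `P` with integral value, and its value is the residue.
-/

set_option autoImplicit false
set_option linter.unusedSectionVars false

noncomputable section

open AlgebraicCurve IsLocalRing

namespace Fermat.Agent.AbVar

open scoped Classical

theorem valAt_neg {K E : Type*} [Field K] [Field E] [Algebra K E] [IsAlgClosed K]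
    [FF.IsFunctionField K E] (P : Place K E) {e : E} (he : e ∈ P.toValuationSubring) :
    valAt P (-e) = -valAt P e :=
  valAt_eq_of_sub_mem (by
    have h := neg_mem (sub_valAt_mem P he)
    rw [map_neg]
    convert h using 1
    ring)

variable {k F Ω κ : Type*} [Field k] [Field F] [Field Ω] [Field κ] [Algebra k F] [Algebra k Ω]
  [Algebra k κ] [IsAlgClosed k] [FF.IsFunctionField k F] [IsAlgClosed Ω]
  {V : ValuationSubring Ω} [Algebra k V] [IsScalarTower k V Ω]

theorem valAt_incl_algebraMap (P : Place Ω (ConstExt k F Ω)) (c : k) :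
    valAt P (incl k F Ω (algebraMap k F c)) = ((algebraMap k V c : V) : Ω) := by
  rw [incl_algebraMap, valAt_algebraMap]
  exact IsScalarTower.algebraMap_apply k V Ω c

variable (V) in
/-- The functions of `F` with integral value at `P`. -/
def redRing (P : Place Ω (ConstExt k F Ω)) : ValuationSubring F where
  carrier := {f | incl k F Ω f ∈ P.toValuationSubring ∧ valAt P (incl k F Ω f) ∈ V}
  zero_mem' := ⟨by rw [map_zero]; exact zero_mem _, by
    rw [map_zero, valAt_eq_zero_of_mem (zero_mem _)]; exact zero_mem _⟩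
  one_mem' := ⟨by rw [map_one]; exact one_mem _, by
    rw [map_one, ← map_one (algebraMap Ω (ConstExt k F Ω)), valAt_algebraMap]; exact one_mem _⟩
  add_mem' := by
    rintro a b ⟨ha, ha'⟩ ⟨hb, hb'⟩
    refine ⟨by rw [map_add]; exact add_mem ha hb, ?_⟩
    rw [map_add, valAt_add P ha hb]
    exact add_mem ha' hb'
  mul_mem' := by
    rintro a b ⟨ha, ha'⟩ ⟨hb, hb'⟩
    refine ⟨by rw [map_mul]; exact mul_mem ha hb, ?_⟩
    rw [map_mul, valAt_mul P ha hb]
    exact mul_mem ha' hb'
  neg_mem' := by
    rintro a ⟨ha, ha'⟩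
    refine ⟨by rw [map_neg]; exact neg_mem ha, ?_⟩
    rw [map_neg, valAt_neg P ha]
    exact neg_mem ha'
  mem_or_inv_mem' := fun f => by
    by_cases hf : incl k F Ω f ∈ P.toValuationSubring
    · by_cases hc : valAt P (incl k F Ω f) ∈ V
      · exact Or.inl ⟨hf, hc⟩
      · have h0 : valAt P (incl k F Ω f) ≠ 0 := fun h => hc (h ▸ zero_mem _)
        obtain ⟨h1, h2⟩ := valAt_inv P hf h0
        refine Or.inr ⟨by rw [map_inv₀]; exact h1, ?_⟩
        rw [map_inv₀, h2]
        exact (V.mem_or_inv_mem _).resolve_left hc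
    · have hneg : P.ord (incl k F Ω f) < 0 := by
        by_contra h
        exact hf ((FF.mem_iff P).mpr (Or.inr (not_lt.mp h)))
      have h1 : (incl k F Ω f)⁻¹ ∈ FF.ordGe P 1 :=
        FF.mem_ordGe_of_le P (by rw [P.ord_inv]; omega)
      refine Or.inr ⟨by rw [map_inv₀]; exact mem_of_mem_ordGe_one h1, ?_⟩
      rw [map_inv₀, valAt_eq_zero_of_mem h1]
      exact zero_mem _

theorem algebraMap_mem_redRing (P : Place Ω (ConstExt k F Ω)) (c : k) :
    algebraMap k F c ∈ redRing V P :=
  ⟨by rw [incl_algebraMap]; exact P.algebraMap_mem' _, by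
    rw [valAt_incl_algebraMap (V := V)]; exact (algebraMap k V c).2⟩

variable (r : V →ₐ[k] κ)

/-- The reduced values. -/
def redVal (P : Place Ω (ConstExt k F Ω)) : redRing V P →+* κ where
  toFun x := r ⟨valAt P (incl k F Ω (x : F)), x.2.2⟩
  map_one' := by
    rw [← map_one r]
    refine congrArg r (Subtype.ext ?_)
    show valAt P (incl k F Ω ((1 : redRing V P) : F)) = 1
    rw [OneMemClass.coe_one, map_one, ← map_one (algebraMap Ω (ConstExt k F Ω)), valAt_algebraMap]
  map_zero' := by
    rw [← map_zero r]
    refine congrArg r (Subtype.ext ?_)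
    show valAt P (incl k F Ω ((0 : redRing V P) : F)) = 0
    rw [ZeroMemClass.coe_zero, map_zero, valAt_eq_zero_of_mem (zero_mem _)]
  map_mul' x y := by
    rw [← map_mul]
    refine congrArg r (Subtype.ext ?_)
    show valAt P (incl k F Ω ((x * y : redRing V P) : F)) = _
    rw [MulMemClass.coe_mul, map_mul, valAt_mul P x.2.1 y.2.1]
    rfl
  map_add' x y := by
    rw [← map_add]
    refine congrArg r (Subtype.ext ?_)
    show valAt P (incl k F Ω ((x + y : redRing V P) : F)) = _
    rw [AddMemClass.coe_add, map_add, valAt_add P x.2.1 y.2.1]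
    rfl

variable {r} (hr : Function.Surjective r) [IsAlgClosed κ]

theorem redVal_eq_zero_iff (hr : Function.Surjective r) (P : Place Ω (ConstExt k F Ω))
    (x : redRing V P) : redVal r P x = 0 ↔ x ∈ maximalIdeal (redRing V P) := by
  rw [mem_maximalIdeal, mem_nonunits_iff]
  constructor
  · intro h hu
    exact (hu.map (redVal r P)).ne_zero h
  · intro h
    by_contra h0
    obtain ⟨u, hu⟩ := isUnit_iff_exists_inv.mp
      ((res_ne_zero_iff hr (a := (⟨valAt P (incl k F Ω (x : F)), x.2.2⟩ : V))).mp h0)
    have hu' : valAt P (incl k F Ω (x : F)) * (u : Ω) = 1 := congrArg Subtype.val hu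
    have hv0 : valAt P (incl k F Ω (x : F)) ≠ 0 := left_ne_zero_of_mul_eq_one hu'
    obtain ⟨h1, h2⟩ := valAt_inv P x.2.1 hv0
    have hx0 : (x : F) ≠ 0 := fun e => hv0 (by
      rw [e, map_zero, valAt_eq_zero_of_mem (zero_mem _)])
    refine h (IsUnit.of_mul_eq_one ⟨(x : F)⁻¹, by rw [map_inv₀]; exact h1, ?_⟩
      (Subtype.ext (mul_inv_cancel₀ hx0)))
    rw [map_inv₀, h2, ← eq_inv_of_mul_eq_one_right hu']
    exact u.2

theorem exists_red (P : Place Ω (ConstExt k F Ω)) (hr : Function.Surjective r) :
    ∃ R : Place κ (ConstExt k F κ),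
      ∀ f : F, (incl k F κ f ∈ R.toValuationSubring ↔ f ∈ redRing V P) ∧
        ∀ h : f ∈ redRing V P,
          incl k F κ f - algebraMap κ (ConstExt k F κ) (redVal r P ⟨f, h⟩) ∈ FF.ordGe R 1 :=
  exists_place_of_hom (redRing V P) (algebraMap_mem_redRing P) (redVal r P)
    (fun c => by
      rw [← r.commutes c]
      exact congrArg r (Subtype.ext (valAt_incl_algebraMap (V := V) P c)))
    (redVal_eq_zero_iff hr P)

variable (r) in
/-- The reduction of a place. -/
def red (hr : Function.Surjective r) (P : Place Ω (ConstExt k F Ω)) : Place κ (ConstExt k F κ) :=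
  (exists_red P hr).choose

theorem mem_red_iff (hr : Function.Surjective r) (P : Place Ω (ConstExt k F Ω)) (f : F) :
    incl k F κ f ∈ (red r hr P).toValuationSubring ↔
      incl k F Ω f ∈ P.toValuationSubring ∧ valAt P (incl k F Ω f) ∈ V :=
  ((exists_red P hr).choose_spec f).1

theorem valAt_red (hr : Function.Surjective r) (P : Place Ω (ConstExt k F Ω)) {f : F}
    (hf : incl k F Ω f ∈ P.toValuationSubring) (h : valAt P (incl k F Ω f) ∈ V) :
    valAt (red r hr P) (incl k F κ f) = r ⟨valAt P (incl k F Ω f), h⟩ :=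
  valAt_eq_of_sub_mem (((exists_red P hr).choose_spec f).2 ⟨hf, h⟩)

/-- A place over a place of `F` reduces to the place over the same place. -/
theorem red_liftPlace (hr : Function.Surjective r) (Q : Place k F) :
    red r hr (liftPlace Q : Place Ω (ConstExt k F Ω)) = liftPlace Q := by
  refine liftPlace_unique Q fun f => ?_
  rw [mem_red_iff]
  refine ⟨fun hf => ⟨(incl_mem_liftPlace Q f).mpr hf, ?_⟩, fun h => (incl_mem_liftPlace Q f).mp h.1⟩
  rw [valAt_incl_liftPlace Q hf, IsScalarTower.algebraMap_apply k V Ω]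
  exact (algebraMap k V _).2

theorem mapDomain_red_baseDiv (hr : Function.Surjective r) (D : Divisor k F) :
    Finsupp.mapDomain (red r hr) (baseDiv D : Divisor Ω (ConstExt k F Ω)) = baseDiv D := by
  show Finsupp.mapDomain (red r hr) (Finsupp.mapDomain liftPlace D) = Finsupp.mapDomain liftPlace D
  rw [← Finsupp.mapDomain_comp]
  exact congrArg (fun g => Finsupp.mapDomain g D) (funext (red_liftPlace hr))

theorem degree_mapDomain_red (hr : Function.Surjective r)
    (D : Divisor Ω (ConstExt k F Ω)) :
    Divisor.degree (Finsupp.mapDomain (red r hr) D) = Divisor.degree D := by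
  induction D using Finsupp.induction with
  | zero => simp
  | single_add v n E _ _ ih =>
    rw [Finsupp.mapDomain_add, map_add, map_add, ih, Finsupp.mapDomain_single,
      Divisor.degree_single, Divisor.degree_single, FF.deg_eq_one, FF.deg_eq_one]

end Fermat.Agent.AbVar
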