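import Fermat.Agent.AbVar.Curve.Genus
import Fermat.Agent.AbVar.Curve.RedPlace

/-!
# Reduction of divisors of functions

For a Gauss unit `g` of `ConstExt k F Ω` the divisor of the reduction is the reduction of the
divisor, and values at places reduce to values at the reduced places.
-/

set_option autoImplicit false
set_option linter.unusedSectionVars false

noncomputable section

open AlgebraicCurve IsLocalRing

namespace Fermat.Agent.AbVar

open scoped Classical

section Generic

variable {K E : Type*} [Field K] [Field E] [Algebra K E] [FF.IsFunctionField K E] [IsAlgClosed K]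

theorem exists_eq_single {D : Divisor K E} (hD : 0 ≤ D) (h : Divisor.degree D = 1) :
    ∃ v, D = Finsupp.single v 1 := by
  obtain ⟨v, hv⟩ := Finsupp.ne_iff.mp (fun e => by rw [e, map_zero] at h; omega : D ≠ 0)
  have hvp : 0 ≤ D v := Finsupp.le_def.mp hD v
  simp only [Finsupp.coe_zero, Pi.zero_apply] at hv
  refine ⟨v, (eq_of_le_of_degree_le' (Finsupp.le_def.mpr fun w => ?_)
    (by rw [FiniteFlat.degree_single_one, h])).symm⟩
  rcases eq_or_ne w v with rfl | hw
  · rw [Finsupp.single_eq_same]; omega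
  · rw [Finsupp.single_eq_of_ne hw]; exact Finsupp.le_def.mp hD w

theorem poles_inv_eq (f : E) : FF.poles K f⁻¹ = FF.div K f + FF.poles K f := by
  rw [FF.div_eq_poles_sub, sub_add_cancel]

end Generic

variable {k F Ω κ : Type*} [Field k] [Field F] [Field Ω] [Field κ] [Algebra k F] [Algebra k Ω]
  [Algebra k κ] [IsAlgClosed k] [FF.IsFunctionField k F] [IsAlgClosed Ω] [IsAlgClosed κ]
  {V : ValuationSubring Ω} [Algebra k V] [IsScalarTower k V Ω] {r : V →ₐ[k] κ}

theorem genusFF_red_eq :
    genusFF κ (ConstExt k F κ) = genusFF Ω (ConstExt k F Ω) := by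
  rw [genusFF_constExt, genusFF_constExt]

variable (k F Ω κ) in
theorem exists_common_threshold : ∃ c : ℤ, 1 ≤ c ∧
    (∀ D : Divisor k F, c ≤ Divisor.degree D →
      FF.ell k D = Divisor.degree D + 1 - genusFF k F) ∧
    (∀ D : Divisor Ω (ConstExt k F Ω), c ≤ Divisor.degree D →
      FF.ell Ω D = Divisor.degree D + 1 - genusFF Ω (ConstExt k F Ω)) ∧
    (∀ D : Divisor κ (ConstExt k F κ), c ≤ Divisor.degree D →
      FF.ell κ D = Divisor.degree D + 1 - genusFF κ (ConstExt k F κ)) := by
  obtain ⟨a, ha1, ha⟩ := FiniteFlat.exists_threshold (K := k) (F := F)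
  obtain ⟨b, hb1, hb⟩ := FiniteFlat.exists_threshold (K := Ω) (F := ConstExt k F Ω)
  obtain ⟨d, hd1, hd⟩ := FiniteFlat.exists_threshold (K := κ) (F := ConstExt k F κ)
  exact ⟨max a (max b d), le_max_of_le_left ha1,
    fun D hD => ha D ((le_max_left _ _).trans hD),
    fun D hD => hb D ((le_max_left _ _).trans ((le_max_right _ _).trans hD)),
    fun D hD => hd D ((le_max_right _ _).trans ((le_max_right _ _).trans hD))⟩

variable (k F Ω κ) in
/-- A common degree threshold. -/
def thr : ℤ := (exists_common_threshold k F Ω κ).choose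

variable (k F Ω κ) in
/-- A degree from which on reduction of divisors is well behaved. -/
def bigDeg' : ℤ := 3 * thr k F Ω κ + 2 + genusFF Ω (ConstExt k F Ω)

theorem bigDeg'_bounds : 1 ≤ thr k F Ω κ ∧ 3 * thr k F Ω κ + 2 ≤ bigDeg' k F Ω κ ∧
    thr k F Ω κ + genusFF Ω (ConstExt k F Ω) < bigDeg' k F Ω κ := by
  have h := (exists_common_threshold k F Ω κ).choose_spec.1
  change 1 ≤ thr k F Ω κ at h
  refine ⟨h, ?_, ?_⟩ <;> unfold bigDeg' <;> omega

variable (hr : Function.Surjective r)

theorem rho_spec {D : Divisor Ω (ConstExt k F Ω)} (hD : 0 ≤ D)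
    (hdeg : bigDeg' k F Ω κ ≤ Divisor.degree D) :
    Divisor.degree (rho hr D) = Divisor.degree D ∧
      redW r (riemannRochSpace D) = riemannRochSpace (rho hr D) := by
  obtain ⟨h1, h2, h3⟩ := bigDeg'_bounds (k := k) (F := F) (Ω := Ω) (κ := κ)
  obtain ⟨-, -, hcE, hcE'⟩ := (exists_common_threshold k F Ω κ).choose_spec
  have e1 := hcE D (show thr k F Ω κ ≤ _ by omega)
  have e2 := ell_le_ell_rho hr D
  have e3 := degree_rho_le hr hD
  have e4 : thr k F Ω κ ≤ Divisor.degree (rho hr D) := by
    have := FiniteFlat.ell_le_degree_add_one (rho_nonneg hr D)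
    omega
  have e5 := hcE' _ e4
  rw [genusFF_red_eq (k := k) (F := F) (Ω := Ω)] at e5
  refine ⟨by omega, ?_⟩
  have := finiteDimensional_redW hr D
  refine Submodule.eq_of_le_of_finrank_le (redW_le_rho hr D) ?_
  rw [(finrank_redW hr _).2]
  have e6 : FF.ell κ (rho hr D) ≤ FF.ell Ω D := by omega
  unfold FF.ell at e6
  exact_mod_cast e6

theorem rho_mono {D E : Divisor Ω (ConstExt k F Ω)} (hD : 0 ≤ D)
    (hdeg : bigDeg' k F Ω κ ≤ Divisor.degree D) (hle : D ≤ E) : rho hr D ≤ rho hr E := by
  obtain ⟨h1, h2, h3⟩ := bigDeg'_bounds (k := k) (F := F) (Ω := Ω) (κ := κ)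
  obtain ⟨-, -, -, hcE'⟩ := (exists_common_threshold k F Ω κ).choose_spec
  obtain ⟨hd, he⟩ := rho_spec hr hD hdeg
  refine FiniteFlat.le_of_riemannRochSpace_le hcE'
    (show thr k F Ω κ + 1 ≤ Divisor.degree (rho hr D) by omega) ?_
  rw [← he]
  exact (redW_mono r (FF.riemannRochSpace_mono hle)).trans (redW_le_rho hr E)

theorem rho_add {D E : Divisor Ω (ConstExt k F Ω)} (hD : 0 ≤ D) (hE : 0 ≤ E)
    (hdD : bigDeg' k F Ω κ ≤ Divisor.degree D) (hdE : bigDeg' k F Ω κ ≤ Divisor.degree E) :
    rho hr (D + E) = rho hr D + rho hr E := by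
  obtain ⟨h1, h2, h3⟩ := bigDeg'_bounds (k := k) (F := F) (Ω := Ω) (κ := κ)
  obtain ⟨hc1, -, -, hcE'⟩ := (exists_common_threshold k F Ω κ).choose_spec
  obtain ⟨hd, he⟩ := rho_spec hr hD hdD
  obtain ⟨hd', he'⟩ := rho_spec hr hE hdE
  obtain ⟨hd'', he''⟩ := rho_spec hr (add_nonneg hD hE) (by rw [map_add]; omega)
  refine (eq_of_le_of_degree_le' (FiniteFlat.le_of_riemannRochSpace_le hcE'
    (show thr k F Ω κ + 1 ≤ _ by rw [map_add]; omega) ?_)
    (by rw [hd'', map_add, map_add, hd, hd'])).symm
  rw [← FiniteFlat.riemannRochSpace_mul hc1 hcE'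
    (show 3 * thr k F Ω κ + 2 ≤ _ by omega) (show 3 * thr k F Ω κ + 2 ≤ _ by omega),
    ← he, ← he', ← he'']
  exact (redW_mul_le r _ _).trans (redW_mono r (FiniteFlat.riemannRochSpace_mul_le D E))

theorem rho_baseDiv' {D : Divisor k F} (hD : 0 ≤ D)
    (hdeg : bigDeg' k F Ω κ ≤ Divisor.degree D) :
    rho hr (baseDiv D : Divisor Ω (ConstExt k F Ω)) = baseDiv D := by
  obtain ⟨h1, h2, h3⟩ := bigDeg'_bounds (k := k) (F := F) (Ω := Ω) (κ := κ)
  obtain ⟨-, hcF, -, -⟩ := (exists_common_threshold k F Ω κ).choose_spec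
  exact rho_baseDiv hr hcF hD (show thr k F Ω κ + 1 ≤ _ by omega)

/-- Translating by the divisor of a Gauss unit. -/
theorem rho_translate {T : Divisor Ω (ConstExt k F Ω)} (hT : 0 ≤ T)
    (hdeg : bigDeg' k F Ω κ ≤ Divisor.degree T)
    (g : (gauss r : ValuationSubring (ConstExt k F Ω))) (hg : gaussRed r g ≠ 0)
    (h0 : 0 ≤ T + FF.div Ω (g : ConstExt k F Ω)) :
    rho hr (T + FF.div Ω (g : ConstExt k F Ω)) = rho hr T + FF.div κ (gaussRed r g) := by
  obtain ⟨h1, h2, h3⟩ := bigDeg'_bounds (k := k) (F := F) (Ω := Ω) (κ := κ)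
  obtain ⟨-, -, -, hcE'⟩ := (exists_common_threshold k F Ω κ).choose_spec
  have hg0 : (g : ConstExt k F Ω) ≠ 0 := fun e => hg (by
    rw [show g = 0 from Subtype.ext e, map_zero])
  set Q := T + FF.div Ω (g : ConstExt k F Ω) with hQ
  have hQd : Divisor.degree Q = Divisor.degree T := by
    rw [hQ, map_add, FF.degree_div, add_zero]
  obtain ⟨hdT, heT⟩ := rho_spec hr hT hdeg
  obtain ⟨hdQ, heQ⟩ := rho_spec hr h0 (hQd ▸ hdeg)
  have hle : riemannRochSpace (rho hr Q - FF.div κ (gaussRed r g)) ≤
      riemannRochSpace (rho hr T) := by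
    intro x hx
    have hy : x / gaussRed r g ∈ riemannRochSpace (rho hr Q) := by
      rw [FF.mem_riemannRochSpace'] at hx ⊢
      intro v
      have h4 := FF.mul_mem_ordGe v (hx v) (FF.mem_ordGe_of_le v (v.ord_inv (gaussRed r g)).ge)
      rw [← div_eq_mul_inv] at h4
      refine FF.ordGe_anti v ?_ h4
      simp
    rw [← heQ] at hy
    obtain ⟨q, hq, hqy⟩ := exists_of_mem_redW hr hy
    have hmem : ((q * g : (gauss r : ValuationSubring (ConstExt k F Ω))) : ConstExt k F Ω) ∈
        riemannRochSpace T := by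
      have hgm : (g : ConstExt k F Ω) ∈ riemannRochSpace (-FF.div Ω (g : ConstExt k F Ω)) :=
        FF.mem_riemannRochSpace'.mpr fun v => FF.mem_ordGe_of_le v (by simp)
      have := FiniteFlat.mul_mem_riemannRochSpace hq hgm
      rwa [hQ, add_neg_cancel_right] at this
    have hx' := gaussRed_mem_redW r hmem
    rw [map_mul, hqy, div_mul_cancel₀ _ hg, heT] at hx'
    exact hx'
  have hd : Divisor.degree (rho hr Q - FF.div κ (gaussRed r g)) = Divisor.degree T := by
    rw [map_sub, FF.degree_div, sub_zero, hdQ, hQd]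
  have heq := eq_of_le_of_degree_le'
    (FiniteFlat.le_of_riemannRochSpace_le hcE' (show thr k F Ω κ + 1 ≤ _ by omega) hle)
    (by omega)
  rw [← heq, sub_add_cancel]

theorem rho_add_baseDiv {T : Divisor Ω (ConstExt k F Ω)} (hT : 0 ≤ T)
    (hdeg : bigDeg' k F Ω κ ≤ Divisor.degree T) {B : Divisor k F} (hB : 0 ≤ B) :
    rho hr (T + baseDiv B) = rho hr T + baseDiv B := by
  obtain ⟨Q⟩ := FF.exists_place (K := k) (F := F)
  set A := Finsupp.single Q (bigDeg' k F Ω κ)
  obtain ⟨h1, h2, h3⟩ := bigDeg'_bounds (k := k) (F := F) (Ω := Ω) (κ := κ)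
  have hA : 0 ≤ A := Finsupp.single_nonneg.mpr (by omega)
  have hAd : Divisor.degree A = bigDeg' k F Ω κ := FiniteFlat.degree_single_one _ _
  have hB0 := FF.degree_nonneg hB
  have e1 := rho_add hr (add_nonneg hT (baseDiv_nonneg (Ω := Ω) hB)) (baseDiv_nonneg (Ω := Ω) hA)
    (by rw [map_add, degree_baseDiv]; omega) (by rw [degree_baseDiv]; omega)
  have e2 := rho_add hr hT (baseDiv_nonneg (Ω := Ω) (add_nonneg hB hA)) hdeg
    (by rw [degree_baseDiv, map_add]; omega)
  rw [add_assoc, ← map_add, e2, rho_baseDiv' hr (add_nonneg hB hA) (by rw [map_add]; omega),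
    rho_baseDiv' hr hA hAd.ge, map_add, ← add_assoc] at e1
  exact (add_right_cancel e1).symm

theorem rho_add_single {T : Divisor Ω (ConstExt k F Ω)} (hT : 0 ≤ T)
    (hdeg : bigDeg' k F Ω κ ≤ Divisor.degree T) (P : Place Ω (ConstExt k F Ω)) :
    rho hr (T + Finsupp.single P 1) = rho hr T + Finsupp.single (red r hr P) 1 := by
  have hP : (0 : Divisor Ω (ConstExt k F Ω)) ≤ Finsupp.single P 1 :=
    Finsupp.single_nonneg.mpr zero_le_one
  obtain ⟨hdT, -⟩ := rho_spec hr hT hdeg
  obtain ⟨hdTP, -⟩ := rho_spec hr (add_nonneg hT hP)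
    (by rw [map_add, FiniteFlat.degree_single_one]; omega)
  obtain ⟨R, hR⟩ := exists_eq_single
    (sub_nonneg.mpr (rho_mono hr hT hdeg (le_add_of_nonneg_right hP)))
    (by rw [map_sub, hdTP, hdT, map_add, FiniteFlat.degree_single_one]; ring)
  rw [sub_eq_iff_eq_add'] at hR
  rw [hR]
  suffices R = red r hr P by rw [this]
  -- the reduced place has the reduced values
  have key : ∀ f : F, incl k F Ω f ∈ P.toValuationSubring →
      (hV : valAt P (incl k F Ω f) ∈ V) →
      incl k F κ f - algebraMap κ (ConstExt k F κ) (r ⟨valAt P (incl k F Ω f), hV⟩) ∈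
        FF.ordGe R 1 := by
    intro f hf hV
    by_cases hfa : IsAlgebraic k f
    · obtain ⟨a, rfl⟩ := FF.eq_algebraMap_of_ord_nonneg (K := k) (f := f)
        fun v => (FF.ord_eq_zero_of_isAlgebraic hfa v).ge
      rw [incl_algebraMap, show (⟨valAt P (incl k F Ω (algebraMap k F a)), hV⟩ : V) =
        algebraMap k V a from Subtype.ext (valAt_incl_algebraMap (V := V) P a), r.commutes,
        sub_self]
      exact zero_mem _
    set c := valAt P (incl k F Ω f)
    set g : (gauss r : ValuationSubring (ConstExt k F Ω)) :=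
      ⟨incl k F Ω f, incl_mem_gauss r f⟩ -
        ⟨algebraMap Ω (ConstExt k F Ω) c, algebraMap_mem_gauss r hV⟩ with hgdef
    have hgval : (g : ConstExt k F Ω) = incl k F Ω f - algebraMap Ω (ConstExt k F Ω) c := rfl
    have hgred : gaussRed r g = incl k F κ f - algebraMap κ (ConstExt k F κ) (r ⟨c, hV⟩) := by
      rw [hgdef, map_sub, gaussRed_incl, gaussRed_algebraMap r ⟨c, hV⟩]
    have hg0 : gaussRed r g ≠ 0 := fun e => transcendental_incl (Ω := κ) hfa (by
      rw [hgred, sub_eq_zero] at e
      rw [e]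
      exact isAlgebraic_algebraMap _)
    have hgE : (g : ConstExt k F Ω) ≠ 0 := fun e => hg0 (by
      rw [show g = 0 from Subtype.ext e, map_zero])
    set B : Divisor Ω (ConstExt k F Ω) := baseDiv (FF.poles k f) with hB
    have hBn : 0 ≤ B := baseDiv_nonneg (FF.poles_nonneg f)
    have hPB : Finsupp.single P 1 ≤ B + FF.div Ω (g : ConstExt k F Ω) :=
      Finsupp.le_def.mpr fun v => by
        rw [Finsupp.add_apply, FF.div_apply, hB, ← poles_incl, FF.poles_apply]
        have hg1 : v.ord (incl k F Ω f) ≥ 0 → 0 ≤ v.ord (g : ConstExt k F Ω) := fun h => by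
          refine FF.ord_nonneg v ?_
          rw [hgval]
          exact sub_mem ((FF.mem_iff v).mpr (Or.inr h)) (v.algebraMap_mem' c)
        rcases eq_or_ne v P with rfl | hv
        · rw [Finsupp.single_eq_same]
          have h1 : (g : ConstExt k F Ω) ∈ FF.ordGe v 1 := hgval ▸ sub_valAt_mem v hf
          have h2 := FF.le_ord_of_mem_ordGe v hgE h1
          have h3 := FF.ord_nonneg v hf
          omega
        · rw [Finsupp.single_eq_of_ne hv]
          rcases le_or_gt 0 (v.ord (incl k F Ω f)) with h | h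
          · have := hg1 h
            omega
          · have := (FF.ord_add_eq_left v (f := incl k F Ω f)
              (g := -algebraMap Ω (ConstExt k F Ω) c) (fun e => by simp [e] at h)
              (by rw [FF.ord_neg, FF.ord_algebraMap]; exact Or.inr h)).2
            rw [← sub_eq_add_neg, ← hgval] at this
            omega
    have h0 : 0 ≤ T + B + FF.div Ω (g : ConstExt k F Ω) := by
      rw [add_assoc]
      exact add_nonneg hT (hP.trans hPB)
    have hmono := rho_mono hr (add_nonneg hT hP)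
      (by rw [map_add, FiniteFlat.degree_single_one]; omega)
      (show T + Finsupp.single P 1 ≤ T + B + FF.div Ω (g : ConstExt k F Ω) by
        rw [add_assoc]; exact add_le_add_right hPB T)
    rw [rho_translate hr (add_nonneg hT hBn) (by
        rw [map_add]; have := FF.degree_nonneg hBn; omega) g hg0 h0, hB,
      rho_add_baseDiv hr hT hdeg (FF.poles_nonneg f), hR, add_assoc] at hmono
    have h5 := Finsupp.le_def.mp (le_of_add_le_add_left hmono) R
    rw [Finsupp.single_eq_same, Finsupp.add_apply, ← poles_incl, FF.poles_apply, FF.div_apply,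
      hgred] at h5
    refine FF.mem_ordGe_of_le R ?_
    show 1 ≤ R.ord (incl k F κ f - algebraMap κ (ConstExt k F κ) (r ⟨c, hV⟩))
    rcases le_or_gt 0 (R.ord (incl k F κ f)) with h | h
    · omega
    · have := (FF.ord_add_eq_left R (f := incl k F κ f)
        (g := -algebraMap κ (ConstExt k F κ) (r ⟨c, hV⟩)) (fun e => by simp [e] at h)
        (by rw [FF.ord_neg, FF.ord_algebraMap]; exact Or.inr h)).2
      rw [← sub_eq_add_neg] at this
      omega
  have hW : ∀ f : F, incl k F κ f ∈ (red r hr P).toValuationSubring ↔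
      incl k F κ f ∈ R.toValuationSubring := by
    intro f
    refine ⟨fun h => ?_, fun h => ?_⟩
    · obtain ⟨h1, h2⟩ := (mem_red_iff hr P f).mp h
      exact mem_of_sub_mem (key f h1 h2)
    · by_contra hn
      have hf0 : f ≠ 0 := fun e => hn (by rw [e, map_zero]; exact zero_mem _)
      have hi : incl k F κ f⁻¹ ∈ (red r hr P).toValuationSubring := by
        rw [map_inv₀]
        exact ((red r hr P).toValuationSubring.mem_or_inv_mem _).resolve_left hn
      obtain ⟨h1, h2⟩ := (mem_red_iff hr P f⁻¹).mp hi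
      have h3 := valAt_red hr P h1 h2
      have h4 : valAt (red r hr P) (incl k F κ f⁻¹) = 0 := by
        by_contra h5
        refine hn ?_
        have h6 := (valAt_inv (red r hr P) hi h5).1
        rwa [map_inv₀, inv_inv] at h6
      have h7 := key f⁻¹ h1 h2
      rw [← h3, h4, map_zero, sub_zero, map_inv₀] at h7
      have h8 := FF.le_ord_of_mem_ordGe R (inv_ne_zero ((map_ne_zero _).mpr hf0)) h7
      have h9 := FF.ord_nonneg R h
      rw [R.ord_inv] at h8
      omega
  exact (place_ext hW fun f hf => by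
    obtain ⟨h1, h2⟩ := (mem_red_iff hr P f).mp hf
    rw [valAt_red hr P h1 h2, valAt_eq_of_sub_mem (key f h1 h2)]).symm

theorem rho_add_effective {T : Divisor Ω (ConstExt k F Ω)} (hT : 0 ≤ T)
    (hdeg : bigDeg' k F Ω κ ≤ Divisor.degree T) {S : Divisor Ω (ConstExt k F Ω)} (hS : 0 ≤ S) :
    rho hr (T + S) = rho hr T + Finsupp.mapDomain (red r hr) S := by
  induction S using Finsupp.induction generalizing T with
  | zero => simp
  | single_add v n E hv hn ih =>
    have hn0 : 0 ≤ n := by
      have := Finsupp.le_def.mp hS v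
      simpa [Finsupp.notMem_support_iff.mp hv] using this
    have hE : 0 ≤ E := Finsupp.le_def.mpr fun w => by
      rcases eq_or_ne w v with rfl | hw
      · simp [Finsupp.notMem_support_iff.mp hv]
      · simpa [Finsupp.single_eq_of_ne hw] using Finsupp.le_def.mp hS w
    obtain ⟨m, rfl⟩ := Int.eq_ofNat_of_zero_le hn0
    clear hS hn hn0
    induction m generalizing T with
    | zero =>
      rw [Nat.cast_zero, Finsupp.single_zero, zero_add]
      exact ih hT hdeg hE
    | succ m ihm =>
      have hv1 : (0 : Divisor Ω (ConstExt k F Ω)) ≤ Finsupp.single v 1 :=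
        Finsupp.single_nonneg.mpr zero_le_one
      have hstep := ihm (add_nonneg hT hv1)
        (by rw [map_add, FiniteFlat.degree_single_one]; omega)
      rw [rho_add_single hr hT hdeg] at hstep
      rw [Nat.cast_succ, Finsupp.single_add, Finsupp.mapDomain_add, Finsupp.mapDomain_add,
        Finsupp.mapDomain_single, Finsupp.mapDomain_single]
      rw [Finsupp.mapDomain_add, Finsupp.mapDomain_single] at hstep
      have he : T + (Finsupp.single v (m : ℤ) + Finsupp.single v 1 + E) =
          T + Finsupp.single v 1 + (Finsupp.single v (m : ℤ) + E) := by abel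
      rw [he, hstep]
      abel

/-- The divisor of the reduction of a Gauss unit. -/
theorem mapDomain_red_div (hr : Function.Surjective r)
    (g : (gauss r : ValuationSubring (ConstExt k F Ω))) (hg : gaussRed r g ≠ 0) :
    Finsupp.mapDomain (red r hr) (FF.div Ω (g : ConstExt k F Ω)) =
      FF.div κ (gaussRed r g) := by
  obtain ⟨Q⟩ := FF.exists_place (K := k) (F := F)
  obtain ⟨h1, h2, h3⟩ := bigDeg'_bounds (k := k) (F := F) (Ω := Ω) (κ := κ)
  set A : Divisor Ω (ConstExt k F Ω) := baseDiv (Finsupp.single Q (bigDeg' k F Ω κ)) with hA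
  have hAn : 0 ≤ A := baseDiv_nonneg (Finsupp.single_nonneg.mpr (by omega))
  have hAd : Divisor.degree A = bigDeg' k F Ω κ := by
    rw [hA, degree_baseDiv, FiniteFlat.degree_single_one]
  have hp := FF.poles_nonneg (K := Ω) (g : ConstExt k F Ω)
  have hz := FF.poles_nonneg (K := Ω) (g : ConstExt k F Ω)⁻¹
  have hQ : A + FF.poles Ω (g : ConstExt k F Ω) + FF.div Ω (g : ConstExt k F Ω) =
      A + FF.poles Ω (g : ConstExt k F Ω)⁻¹ := by rw [poles_inv_eq]; abel
  have e := rho_translate hr (add_nonneg hAn hp)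
    (by rw [map_add]; have := FF.degree_nonneg hp; omega) g hg
    (by rw [hQ]; exact add_nonneg hAn hz)
  rw [hQ, rho_add_effective hr hAn hAd.ge hz, rho_add_effective hr hAn hAd.ge hp, add_assoc,
    add_left_cancel_iff, poles_inv_eq, Finsupp.mapDomain_add, add_comm _ (FF.div κ _),
    add_left_inj] at e
  exact e

/-- The pointwise form: a positive order survives reduction. -/
theorem ord_red_pos (hr : Function.Surjective r)
    (g : (gauss r : ValuationSubring (ConstExt k F Ω))) (hg : gaussRed r g ≠ 0)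
    (P : Place Ω (ConstExt k F Ω))
    (h : ∀ P', red r hr P' = red r hr P → 0 ≤ P'.ord (g : ConstExt k F Ω))
    (hP : 0 < P.ord (g : ConstExt k F Ω)) : 0 < (red r hr P).ord (gaussRed r g) := by
  rw [← FF.div_apply, ← mapDomain_red_div hr g hg, Finsupp.mapDomain_apply_eq_sum]
  refine Finset.sum_pos' (fun v hv => h v (Finset.mem_filter.mp hv).2) ⟨P, ?_, hP⟩
  simp only [Finset.mem_filter, Finsupp.mem_support_iff, FF.div_apply, and_true]
  omega

/-- Values at places with no pole in the residue class reduce to the reduced value. -/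
theorem valAt_mem_of_regular (hr : Function.Surjective r)
    (g : (gauss r : ValuationSubring (ConstExt k F Ω))) (hg : gaussRed r g ≠ 0)
    (P : Place Ω (ConstExt k F Ω))
    (h : ∀ P', red r hr P' = red r hr P → 0 ≤ P'.ord (g : ConstExt k F Ω)) :
    ∃ ha : valAt P (g : ConstExt k F Ω) ∈ V,
      r ⟨valAt P (g : ConstExt k F Ω), ha⟩ = valAt (red r hr P) (gaussRed r g) := by
  have hgE : (g : ConstExt k F Ω) ≠ 0 := fun e => hg (by
    rw [show g = 0 from Subtype.ext e, map_zero])
  have hgP : (g : ConstExt k F Ω) ∈ P.toValuationSubring :=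
    (FF.mem_iff P).mpr (Or.inr (h P rfl))
  set a := valAt P (g : ConstExt k F Ω)
  have hsub := sub_valAt_mem P hgP
  have ha : a ∈ V := by
    by_contra ha
    obtain ⟨d, hd, hd0⟩ := res_inv_of_notMem hr ha
    have ha0 : a ≠ 0 := fun e => ha (e ▸ zero_mem _)
    set u : (gauss r : ValuationSubring (ConstExt k F Ω)) :=
      ⟨_, algebraMap_mem_gauss r d.2⟩ * g - 1 with hu
    have hur : gaussRed r u = -1 := by
      rw [hu, map_sub, map_mul, gaussRed_algebraMap r d, hd0, map_zero, zero_mul, map_one,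
        zero_sub]
    have huval : (u : ConstExt k F Ω) = algebraMap Ω (ConstExt k F Ω) a⁻¹ *
        ((g : ConstExt k F Ω) - algebraMap Ω (ConstExt k F Ω) a) := by
      rw [mul_sub, ← map_mul, inv_mul_cancel₀ ha0, map_one, ← hd]
      rfl
    have hu0 : (u : ConstExt k F Ω) ≠ 0 := fun e => by
      rw [show u = 0 from Subtype.ext e, map_zero] at hur
      exact neg_ne_zero.mpr one_ne_zero hur.symm
    have h1 := ord_red_pos hr u (by rw [hur]; exact neg_ne_zero.mpr one_ne_zero) P
      (fun P' hP' => FF.ord_nonneg P' (by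
        rw [huval]
        exact mul_mem (P'.algebraMap_mem' _) (sub_mem ((FF.mem_iff P').mpr (Or.inr (h P' hP')))
          (P'.algebraMap_mem' _))))
      (by
        have h2 : (u : ConstExt k F Ω) ∈ FF.ordGe P 1 := by
          rw [huval, ← Algebra.smul_def]
          exact Submodule.smul_mem _ _ hsub
        have := FF.le_ord_of_mem_ordGe P hu0 h2
        omega)
    rw [hur, FF.ord_neg, Place.ord_one] at h1
    omega
  refine ⟨ha, ?_⟩
  set u : (gauss r : ValuationSubring (ConstExt k F Ω)) :=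
    g - ⟨_, algebraMap_mem_gauss r ha⟩ with hu
  have hur : gaussRed r u = gaussRed r g - algebraMap κ (ConstExt k F κ) (r ⟨a, ha⟩) := by
    rw [hu, map_sub, gaussRed_algebraMap r ⟨a, ha⟩]
  by_cases h0 : gaussRed r u = 0
  · rw [hur, sub_eq_zero] at h0
    rw [h0, valAt_algebraMap]
  have huval : (u : ConstExt k F Ω) =
      (g : ConstExt k F Ω) - algebraMap Ω (ConstExt k F Ω) a := rfl
  have hu0 : (u : ConstExt k F Ω) ≠ 0 := fun e => h0 (by
    rw [show u = 0 from Subtype.ext e, map_zero])
  have h1 := ord_red_pos hr u h0 P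
    (fun P' hP' => FF.ord_nonneg P' (by
      rw [huval]
      exact sub_mem ((FF.mem_iff P').mpr (Or.inr (h P' hP'))) (P'.algebraMap_mem' _)))
    (by
      have := FF.le_ord_of_mem_ordGe P hu0 (huval ▸ hsub)
      omega)
  refine (valAt_eq_of_sub_mem ?_).symm
  rw [← hur]
  exact FF.mem_ordGe_of_le _ (by omega)

/-- At places with neither zero nor pole in the residue class, values are units. -/
theorem valAt_isUnit_of_ord_eq_zero (hr : Function.Surjective r)
    (g : (gauss r : ValuationSubring (ConstExt k F Ω))) (hg : gaussRed r g ≠ 0)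
    (P : Place Ω (ConstExt k F Ω))
    (h : ∀ P', red r hr P' = red r hr P → P'.ord (g : ConstExt k F Ω) = 0) :
    ∃ ha : valAt P (g : ConstExt k F Ω) ∈ V,
      r ⟨valAt P (g : ConstExt k F Ω), ha⟩ = valAt (red r hr P) (gaussRed r g) ∧
      r ⟨valAt P (g : ConstExt k F Ω), ha⟩ ≠ 0 ∧
      IsUnit (⟨valAt P (g : ConstExt k F Ω), ha⟩ : V) := by
  obtain ⟨ha, he⟩ := valAt_mem_of_regular hr g hg P fun P' hP' => (h P' hP').ge
  have hz : (red r hr P).ord (gaussRed r g) = 0 := by
    rw [← FF.div_apply, ← mapDomain_red_div hr g hg, Finsupp.mapDomain_apply_eq_sum]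
    exact Finset.sum_eq_zero fun v hv => h v (Finset.mem_filter.mp hv).2
  have hne : valAt (red r hr P) (gaussRed r g) ≠ 0 := fun e => by
    have h1 := (valAt_eq_zero_iff _ ((FF.mem_iff _).mpr (Or.inr hz.ge))).mp e
    have h2 := FF.le_ord_of_mem_ordGe _ hg h1
    omega
  exact ⟨ha, he, he ▸ hne, (res_ne_zero_iff hr).mp (he ▸ hne)⟩

end Fermat.Agent.AbVar
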