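import Fermat.Agent.AbVar.Curve.Reduce
import Fermat.Agent.AbVar.Curve.Places
import Fermat.Agent.FiniteFlat.CurveLemmas

/-!
# Reduction of finite-dimensional spaces of functions

Gauss reduction preserves dimensions of spaces of functions and does not increase degrees of
functions; the smallest divisor bounding the poles of a reduced Riemann–Roch space.
-/

set_option autoImplicit false
set_option linter.unusedSectionVars false

noncomputable section

open scoped TensorProduct
open AlgebraicCurve IsLocalRing Polynomial IntermediateField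

namespace Fermat.Agent.AbVar

open scoped Classical

section PoleSup

variable {K E : Type*} [Field K] [Field E] [Algebra K E] [FF.IsFunctionField K E]

/-- The least divisor bounding the poles of a finite-dimensional space of functions. -/
def poleBound (W : Submodule K E) [FiniteDimensional K W] : Divisor K E :=
  Finsupp.onFinset (Finset.univ.biUnion fun i => (FF.finite_support (K := K)
      ((Module.finBasis K W i : W) : E)).toFinset)
    (fun v => ((Finset.univ.sup fun i => (-v.ord ((Module.finBasis K W i : W) : E)).toNat : ℕ) : ℤ))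
    fun v hv => by
      obtain ⟨i, -, hi⟩ : ∃ i ∈ Finset.univ,
          (-v.ord ((Module.finBasis K W i : W) : E)).toNat ≠ 0 := by
        by_contra! hall
        exact hv (Nat.cast_eq_zero.mpr (Nat.le_zero.mp (Finset.sup_le fun i hi => (hall i hi).le)))
      exact Finset.mem_biUnion.mpr
        ⟨i, Finset.mem_univ i, (Set.Finite.mem_toFinset _).mpr (show v.ord _ ≠ 0 from
          fun h0 => hi (by rw [h0]; rfl))⟩

theorem poleBound_nonneg (W : Submodule K E) [FiniteDimensional K W] : 0 ≤ poleBound W :=
  Finsupp.le_def.mpr fun v => by simp [poleBound]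

theorem le_poleBound (W : Submodule K E) [FiniteDimensional K W] :
    W ≤ riemannRochSpace (poleBound W) := by
  intro f hf
  have hb : ∀ i, ((Module.finBasis K W i : W) : E) ∈ riemannRochSpace (poleBound W) := fun i => by
    rw [FF.mem_riemannRochSpace']
    intro v
    refine FF.mem_ordGe_of_le v ?_
    have h1 : (-v.ord ((Module.finBasis K W i : W) : E)).toNat ≤
        Finset.univ.sup fun i => (-v.ord ((Module.finBasis K W i : W) : E)).toNat :=
      Finset.le_sup (f := fun i => (-v.ord ((Module.finBasis K W i : W) : E)).toNat)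
        (Finset.mem_univ i)
    simp only [poleBound, Finsupp.onFinset_apply]
    omega
  have := congrArg Subtype.val ((Module.finBasis K W).sum_repr ⟨f, hf⟩)
  change _ = f at this
  rw [← this, AddSubmonoidClass.coe_finsetSum]
  exact Submodule.sum_mem _ fun i _ => Submodule.smul_mem _ _ (hb i)

theorem exists_poles_ge_poleBound [IsAlgClosed K] (W : Submodule K E) [FiniteDimensional K W] :
    ∃ f ∈ W, poleBound W ≤ FF.poles K f := by
  obtain ⟨f, hf, hfn⟩ := FiniteFlat.exists_exact W (poleBound W).support
    (fun v => -poleBound W v + 1) fun v hv => by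
      by_contra! hall
      have hv' : poleBound W v ≠ 0 := Finsupp.mem_support_iff.mp hv
      simp only [poleBound, Finsupp.onFinset_apply, ne_eq, Nat.cast_eq_zero] at hv'
      obtain ⟨i, -, hi⟩ := Finset.exists_mem_eq_sup Finset.univ
        (Finset.univ_nonempty_iff.mpr (by
          by_contra hne
          rw [not_nonempty_iff] at hne
          exact hv' (by simp))) fun i => (-v.ord ((Module.finBasis K W i : W) : E)).toNat
      have h1 := hall _ (Module.finBasis K W i).2
      rcases eq_or_ne ((Module.finBasis K W i : W) : E) 0 with h0 | h0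
      · rw [hi, h0] at hv'
        simp at hv'
      have h2 := FF.le_ord_of_mem_ordGe v h0 h1
      simp only [poleBound, Finsupp.onFinset_apply] at h2
      rw [hi] at h2 hv'
      omega
  refine ⟨f, hf, Finsupp.le_def.mpr fun v => ?_⟩
  rcases eq_or_ne (poleBound W v) 0 with h0 | h0
  · simp [h0]
  · have h1 : v.ord f < -poleBound W v + 1 :=
      not_le.mp fun e => hfn v (Finsupp.mem_support_iff.mpr h0) (FF.mem_ordGe_of_le v e)
    rw [FF.poles_apply]
    omega

theorem eq_of_le_of_degree_le' [IsAlgClosed K] {D D' : Divisor K E} (h : D ≤ D')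
    (hd : Divisor.degree D' ≤ Divisor.degree D) : D = D' := by
  have h1 : 0 ≤ D' - D := sub_nonneg.mpr h
  have h2 : Divisor.degree (D' - D) ≤ 0 := by rw [map_sub]; omega
  rw [FF.degree_eq_sum _ _ subset_rfl] at h2
  simp only [FF.deg_eq_one, Nat.cast_one, mul_one] at h2
  refine (sub_eq_zero.mp (Finsupp.ext fun v => ?_)).symm
  by_contra hv
  have := Finset.single_le_sum (f := fun w => (D' - D) w) (fun w _ => Finsupp.le_def.mp h1 w)
    (Finsupp.mem_support_iff.mpr hv)
  have h3 := Finsupp.le_def.mp h1 v
  simp only [Finsupp.coe_zero, Pi.zero_apply] at hv h3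
  omega

end PoleSup

/-- A finite family of scalars can be normalised at a largest one. -/
theorem exists_normalize' {Ω : Type*} [Field Ω] (V : ValuationSubring Ω) {ι : Type*} [Fintype ι]
    {c : ι → Ω} (hc : ∃ i, c i ≠ 0) : ∃ i₀, c i₀ ≠ 0 ∧ ∀ i, c i / c i₀ ∈ V := by
  obtain ⟨i, hi⟩ := hc
  obtain ⟨i₀, -, hmax⟩ := Finset.exists_max_image Finset.univ (fun j => V.valuation (c j))
    ⟨i, Finset.mem_univ i⟩
  have h0 : c i₀ ≠ 0 := fun e => by
    have := hmax i (Finset.mem_univ i)
    rw [e, map_zero, le_zero_iff, Valuation.zero_iff] at this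
    exact hi this
  refine ⟨i₀, h0, fun j => ?_⟩
  rw [← V.valuation_le_one_iff, map_div₀, div_le_one₀ (zero_lt_iff.mpr
    ((Valuation.ne_zero_iff _).mpr h0))]
  exact hmax j (Finset.mem_univ j)

variable {k F Ω κ : Type*} [Field k] [Field F] [Field Ω] [Field κ] [Algebra k F] [Algebra k Ω]
  [Algebra k κ] [IsAlgClosed k] {V : ValuationSubring Ω} [Algebra k V] [IsScalarTower k V Ω]
  (r : V →ₐ[k] κ)


/-- A relation between integral elements reduces to a nontrivial one. -/
theorem gaussRed_relation {ι : Type*} [Fintype ι]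
    (u : ι → (gauss r : ValuationSubring (ConstExt k F Ω)))
    {c : ι → Ω} (hc : ∃ i, c i ≠ 0) (hrel : ∑ i, c i • (u i : ConstExt k F Ω) = 0) :
    ∃ d : ι → κ, (∃ i, d i ≠ 0) ∧ ∑ i, d i • gaussRed r (u i) = 0 := by
  obtain ⟨i₀, h0, hA⟩ := exists_normalize' V hc
  refine ⟨fun i => r ⟨_, hA i⟩, ⟨i₀, ?_⟩, ?_⟩
  · have he : (⟨_, hA i₀⟩ : V) = 1 := Subtype.ext (div_self h0)
    simp only
    rw [he, map_one]
    exact one_ne_zero
  · have hsum : ∑ i, (⟨_, algebraMap_mem_gauss r (hA i)⟩ * u i :
        (gauss r : ValuationSubring (ConstExt k F Ω))) = 0 := by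
      refine Subtype.ext ?_
      rw [AddSubmonoidClass.coe_finsetSum, ZeroMemClass.coe_zero]
      have h1 : ∀ i, algebraMap Ω (ConstExt k F Ω) (c i / c i₀) * (u i : ConstExt k F Ω) =
          algebraMap Ω (ConstExt k F Ω) (c i₀)⁻¹ * (c i • (u i : ConstExt k F Ω)) := fun i => by
        rw [Algebra.smul_def, ← mul_assoc, ← map_mul, div_eq_inv_mul]
      simp only [MulMemClass.coe_mul]
      rw [Finset.sum_congr rfl fun i _ => h1 i, ← Finset.mul_sum, hrel, mul_zero]
    have h2 := congrArg (gaussRed r) hsum
    rw [map_sum, map_zero] at h2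
    rw [← h2]
    exact Finset.sum_congr rfl fun i _ => (gaussRed_smul r ⟨_, hA i⟩ (u i)).symm

theorem linearIndependent_of_gaussRed {ι : Type*} [Fintype ι]
    (u : ι → (gauss r : ValuationSubring (ConstExt k F Ω)))
    (hu : LinearIndependent κ fun i => gaussRed r (u i)) :
    LinearIndependent Ω fun i => (u i : ConstExt k F Ω) := by
  rw [Fintype.linearIndependent_iff]
  intro c hc
  by_contra! hne
  obtain ⟨d, ⟨i, hi⟩, hd⟩ := gaussRed_relation r u hne hc
  exact hi (Fintype.linearIndependent_iff.mp hu d hd i)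

/-- The reductions of the integral elements of a space. -/
def redW (W : Submodule Ω (ConstExt k F Ω)) : Submodule κ (ConstExt k F κ) :=
  Submodule.span κ
    (gaussRed r '' {g : (gauss r : ValuationSubring (ConstExt k F Ω)) | (g : ConstExt k F Ω) ∈ W})

theorem gaussRed_mem_redW {W : Submodule Ω (ConstExt k F Ω)}
    {g : (gauss r : ValuationSubring (ConstExt k F Ω))} (hg : (g : ConstExt k F Ω) ∈ W) :
    gaussRed r g ∈ redW r W :=
  Submodule.subset_span ⟨g, hg, rfl⟩

theorem redW_mono {W W' : Submodule Ω (ConstExt k F Ω)} (h : W ≤ W') : redW r W ≤ redW r W' :=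
  Submodule.span_mono (Set.image_mono fun _ hg => h hg)

theorem redW_mul_le (W W' : Submodule Ω (ConstExt k F Ω)) :
    redW r W * redW r W' ≤ redW r (W * W') := by
  rw [redW, redW, Submodule.span_mul_span, Submodule.span_le]
  rintro _ ⟨_, ⟨f, hf, rfl⟩, _, ⟨g, hg, rfl⟩, rfl⟩
  show gaussRed r f * gaussRed r g ∈ redW r (W * W')
  rw [← map_mul]
  exact gaussRed_mem_redW r (Submodule.mul_mem_mul hf hg)

variable {r} (hr : Function.Surjective r)
include hr

theorem exists_of_mem_redW {W : Submodule Ω (ConstExt k F Ω)} {y : ConstExt k F κ}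
    (hy : y ∈ redW r W) : ∃ g : (gauss r : ValuationSubring (ConstExt k F Ω)),
      (g : ConstExt k F Ω) ∈ W ∧ gaussRed r g = y := by
  induction hy using Submodule.span_induction with
  | mem y hy => obtain ⟨g, hg, rfl⟩ := hy; exact ⟨g, hg, rfl⟩
  | zero => exact ⟨0, W.zero_mem, map_zero _⟩
  | add a b _ _ ha hb =>
    obtain ⟨g, hg, rfl⟩ := ha
    obtain ⟨g', hg', rfl⟩ := hb
    exact ⟨g + g', W.add_mem hg hg', map_add _ _ _⟩
  | smul c a _ ha =>
    obtain ⟨g, hg, rfl⟩ := ha
    obtain ⟨a, rfl⟩ := hr c
    refine ⟨(⟨algebraMap Ω (ConstExt k F Ω) (a : Ω), algebraMap_mem_gauss r a.2⟩ :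
      (gauss r : ValuationSubring (ConstExt k F Ω))) * g, ?_, gaussRed_smul r a g⟩
    rw [MulMemClass.coe_mul, ← Algebra.smul_def]
    exact W.smul_mem _ hg

omit hr in
/-- An echelon family in a space of vectors. -/
theorem exists_echelon' {ι : Type*} [Fintype ι] (n : ℕ) (T : Submodule Ω (ι → Ω))
    (hT : Module.finrank Ω T = n) : ∃ c : Fin n → ι → V,
      (∀ j, (fun i => ((c j i : V) : Ω)) ∈ T) ∧
      LinearIndependent κ (fun j i => r (c j i)) := by
  induction n generalizing T with
  | zero => exact ⟨Fin.elim0, fun j => j.elim0, linearIndependent_empty_type⟩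
  | succ n ih =>
    obtain ⟨x, hxT, hx⟩ := Submodule.exists_mem_ne_zero_of_ne_bot
      (show T ≠ ⊥ from fun e => by subst e; rw [finrank_bot] at hT; omega)
    obtain ⟨i₀, h0, hA⟩ := exists_normalize' V (c := x) (Function.ne_iff.mp hx)
    set T' : Submodule Ω (ι → Ω) := T ⊓ LinearMap.ker (LinearMap.proj i₀) with hT'
    let f : T →ₗ[Ω] Ω := (LinearMap.proj i₀).comp T.subtype
    have hf : Function.Surjective f := fun a =>
      ⟨(a / x i₀) • ⟨x, hxT⟩, div_mul_cancel₀ a h0⟩
    have hker : Module.finrank Ω T' = n := by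
      have h1 := f.finrank_range_add_finrank_ker
      rw [LinearMap.range_eq_top.mpr hf, finrank_top, Module.finrank_self, hT] at h1
      have e : (LinearMap.ker f).map T.subtype = T' := by
        ext y
        simp [f, hT', and_comm]
      rw [← e, Submodule.finrank_map_subtype_eq]
      omega
    obtain ⟨c, hc, hli⟩ := ih T' hker
    refine ⟨Fin.cons (fun i => ⟨x i / x i₀, hA i⟩) c, fun j => ?_, ?_⟩
    · induction j using Fin.cases with
      | zero =>
        have : (fun i => x i / x i₀) = (x i₀)⁻¹ • x := by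
          funext i; simp [div_eq_inv_mul]
        exact (this ▸ T.smul_mem _ hxT : (fun i => x i / x i₀) ∈ T)
      | succ j => exact (hc j).1
    · rw [show (fun j i => r ((Fin.cons (fun i => ⟨x i / x i₀, hA i⟩) c :
          Fin (n + 1) → ι → V) j i)) = Fin.cons (fun i => r ⟨x i / x i₀, hA i⟩)
            (fun j i => r (c j i)) from funext (Fin.cases (by simp) (by simp))]
      refine linearIndependent_finCons.mpr ⟨hli, fun hmem => ?_⟩
      have hle : Submodule.span κ (Set.range fun j i => r (c j i)) ≤
          LinearMap.ker (LinearMap.proj i₀) := by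
        refine Submodule.span_le.mpr ?_
        rintro _ ⟨j, rfl⟩
        have h1 : ((c j i₀ : V) : Ω) = 0 := (hc j).2
        simp [show c j i₀ = 0 from Subtype.ext h1]
      have h2 : r ⟨x i₀ / x i₀, hA i₀⟩ = 0 := hle hmem
      rw [show (⟨x i₀ / x i₀, hA i₀⟩ : V) = 1 from Subtype.ext (div_self h0), map_one] at h2
      exact one_ne_zero h2

/-- Reduction preserves the dimension of a space. -/
theorem finrank_redW (W : Submodule Ω (ConstExt k F Ω)) [FiniteDimensional Ω W] :
    FiniteDimensional κ (redW r W) ∧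
      Module.finrank κ (redW r W) = Module.finrank Ω W := by
  let b := Module.Basis.ofVectorSpace k F
  set n := Module.finrank Ω W
  let w := Module.finBasis Ω W
  -- a primitive denominator
  choose p q hq hpq using fun j => exists_div ((w j : W) : ConstExt k F Ω)
  have := isDomain_tensorProduct k F Ω
  obtain ⟨cd, hcd, D, hD, hdD⟩ := exists_primitive_tensor r
    (Finset.prod_ne_zero_iff.mpr fun j (_ : j ∈ Finset.univ) => hq j)
  have hnum : ∀ j, ∃ z, toBig k F V D * (w j : ConstExt k F Ω) = emb k F Ω z := fun j => by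
    refine ⟨(1 ⊗ₜ cd⁻¹) * ((∏ l ∈ Finset.univ.erase j, q l) * p j), ?_⟩
    have h1 : emb k F Ω (∏ l, q l) * (w j : ConstExt k F Ω) =
        emb k F Ω ((∏ l ∈ Finset.univ.erase j, q l) * p j) := by
      rw [hpq j, ← Finset.mul_prod_erase Finset.univ q (Finset.mem_univ j), map_mul, map_mul,
        mul_comm (emb k F Ω (q j)), mul_assoc, mul_div_cancel₀ _ (emb_ne_zero (hq j))]
    rw [map_mul, emb_tmul, map_one, one_mul, ← h1, hdD, map_inv₀]
    field_simp [(map_ne_zero (algebraMap Ω (ConstExt k F Ω))).mpr hcd]
  choose z hz using hnum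
  let e := TensorProduct.equivFinsuppOfBasisLeft (R := k) (N := Ω) b
  let T := Finset.univ.biUnion fun j => (e (z j)).support
  let d : (gauss r : ValuationSubring (ConstExt k F Ω)) := ⟨_, toBig_mem_gauss r D⟩
  have hd : gaussRed r d ≠ 0 := by rw [gaussRed_toBig]; exact hD
  have hd0 : (d : ConstExt k F Ω) ≠ 0 := toBig_ne_zero r hD
  have hdu : IsUnit d := by
    by_contra h
    exact hd ((gaussRed_eq_zero_iff r d).mpr h)
  let v : T → (gauss r : ValuationSubring (ConstExt k F Ω)) :=
    fun i => ⟨_, incl_mem_gauss r (b i.1)⟩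
  have hv : LinearIndependent κ fun i => gaussRed r (v i) := by
    simp only [v, gaussRed_incl]
    exact linearIndependent_incl (Ω := κ) (b.linearIndependent.comp _ Subtype.val_injective)
  let comb : (T → Ω) →ₗ[Ω] ConstExt k F Ω :=
    Fintype.linearCombination Ω fun i => (v i : ConstExt k F Ω)
  have hinj : Function.Injective comb :=
    (linearIndependent_of_gaussRed r v hv).fintypeLinearCombination_injective
  have hW : ∀ x ∈ W, (d : ConstExt k F Ω) * x ∈ LinearMap.range comb := by
    intro x hx
    have hb : ∀ j, (d : ConstExt k F Ω) * (w j : ConstExt k F Ω) ∈ LinearMap.range comb := by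
      intro j
      rw [show (d : ConstExt k F Ω) = toBig k F V D from rfl, hz, ← e.symm_apply_apply (z j),
        TensorProduct.equivFinsuppOfBasisLeft_symm_apply, Finsupp.sum, map_sum]
      refine Submodule.sum_mem _ fun i hi => ?_
      rw [emb_tmul, mul_comm, ← Algebra.smul_def]
      refine Submodule.smul_mem _ _ ?_
      rw [Fintype.range_linearCombination]
      exact Submodule.subset_span
        ⟨⟨i, Finset.mem_biUnion.mpr ⟨j, Finset.mem_univ j, hi⟩⟩, rfl⟩
    have hx' := congrArg Subtype.val (w.sum_repr ⟨x, hx⟩)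
    change _ = x at hx'
    rw [← hx', AddSubmonoidClass.coe_finsetSum, Finset.mul_sum]
    refine Submodule.sum_mem _ fun j _ => ?_
    rw [Submodule.coe_smul, mul_smul_comm]
    exact Submodule.smul_mem _ _ (hb j)
  let S : Submodule Ω (T → Ω) := (W.map (LinearMap.mulLeft Ω (d : ConstExt k F Ω))).comap comb
  have hSd : Module.finrank Ω S = n := by
    have h1 : S.map comb = W.map (LinearMap.mulLeft Ω (d : ConstExt k F Ω)) := by
      refine Submodule.map_comap_eq_self ?_
      rintro _ ⟨x, hx, rfl⟩
      exact hW x hx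
    have e1 := LinearEquiv.finrank_eq (Submodule.equivMapOfInjective comb hinj S)
    have e2 := LinearEquiv.finrank_eq
      (Submodule.equivMapOfInjective (LinearMap.mulLeft Ω (d : ConstExt k F Ω))
        (mul_right_injective₀ hd0) W)
    rw [e1, h1, ← e2]
  obtain ⟨c, hcS, hcli⟩ := exists_echelon' (r := r) n S hSd
  let u : Fin n → (gauss r : ValuationSubring (ConstExt k F Ω)) := fun j =>
    ↑hdu.unit⁻¹ * ∑ i, ⟨_, algebraMap_mem_gauss r (c j i).2⟩ * v i
  have hdi : ((↑hdu.unit⁻¹ : (gauss r : ValuationSubring (ConstExt k F Ω))) : ConstExt k F Ω) =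
      (d : ConstExt k F Ω)⁻¹ :=
    eq_inv_of_mul_eq_one_left (congrArg Subtype.val hdu.val_inv_mul)
  have huW : ∀ j, (u j : ConstExt k F Ω) ∈ W := fun j => by
    obtain ⟨x, hx, hxc⟩ := hcS j
    rw [LinearMap.mulLeft_apply] at hxc
    have : (u j : ConstExt k F Ω) = x := by
      simp only [u, MulMemClass.coe_mul, AddSubmonoidClass.coe_finsetSum, hdi]
      rw [show ∑ i, algebraMap Ω (ConstExt k F Ω) (c j i : V) * (v i : ConstExt k F Ω) =
          comb (fun i => (c j i : V)) by
        simp [comb, Fintype.linearCombination_apply, Algebra.smul_def], ← hxc,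
        inv_mul_cancel_left₀ hd0]
    rwa [this]
  have huli : LinearIndependent κ fun j => gaussRed r (u j) := by
    have hne : gaussRed r (↑hdu.unit⁻¹ : (gauss r : ValuationSubring (ConstExt k F Ω))) ≠ 0 :=
      (hdu.unit⁻¹.isUnit.map (gaussRed r)).ne_zero
    have hinj' : Function.Injective ((LinearMap.mulLeft κ
        (gaussRed r (↑hdu.unit⁻¹ : (gauss r : ValuationSubring (ConstExt k F Ω))))).comp
        (Fintype.linearCombination κ fun i => gaussRed r (v i))) :=
      (mul_right_injective₀ hne).comp hv.fintypeLinearCombination_injective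
    have h3 := hcli.map' _ (LinearMap.ker_eq_bot.mpr hinj')
    suffices he : (fun j => gaussRed r (u j)) = ⇑((LinearMap.mulLeft κ
        (gaussRed r (↑hdu.unit⁻¹ : (gauss r : ValuationSubring (ConstExt k F Ω))))).comp
        (Fintype.linearCombination κ fun i => gaussRed r (v i))) ∘
        fun j i => r (c j i) by
      rw [he]; exact h3
    funext j
    simp only [u, map_mul, map_sum, Function.comp_apply, LinearMap.comp_apply,
      LinearMap.mulLeft_apply, Fintype.linearCombination_apply, gaussRed_algebraMap,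
      Algebra.smul_def, Finset.mul_sum]
  have key : ∀ (s : ℕ) (y : Fin s → redW r W), LinearIndependent κ y → s ≤ n := by
    intro s y hy
    choose g hgW hg using fun i => exists_of_mem_redW hr (y i).2
    have h4 : LinearIndependent Ω fun i => (g i : ConstExt k F Ω) :=
      linearIndependent_of_gaussRed r g (by
        simpa [hg, Function.comp_def] using hy.map' (redW r W).subtype (Submodule.ker_subtype _))
    have h5 : LinearIndependent Ω fun i => (⟨(g i : ConstExt k F Ω), hgW i⟩ : W) :=
      LinearIndependent.of_comp W.subtype h4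
    simpa using h5.fintype_card_le_finrank
  have hfd : FiniteDimensional κ (redW r W) := by
    rw [FiniteDimensional, ← Module.rank_lt_aleph0_iff]
    refine lt_of_le_of_lt (rank_le (n := n) fun t ht => ?_) (Cardinal.natCast_lt_aleph0)
    exact key _ _ (ht.comp _ t.equivFin.symm.injective)
  refine ⟨hfd, le_antisymm (key _ _ (Module.finBasis _ _).linearIndependent) ?_⟩
  have h6 : LinearIndependent κ fun j => (⟨_, gaussRed_mem_redW r (huW j)⟩ : redW r W) :=
    LinearIndependent.of_comp (redW r W).subtype huli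
  simpa using h6.fintype_card_le_finrank

variable [IsAlgClosed Ω]

theorem transcendental_of_gaussRed (g : (gauss r : ValuationSubring (ConstExt k F Ω)))
    (hx : Transcendental κ (gaussRed r g)) : Transcendental Ω (g : ConstExt k F Ω) := fun hal =>
  hx (by
    have := IntermediateField.adjoin.finiteDimensional hal.isIntegral
    have hb := IntermediateField.eq_bot_of_isAlgClosed_of_isAlgebraic Ω⟮(g : ConstExt k F Ω)⟯
    obtain ⟨a, ha⟩ := IntermediateField.mem_bot.mp
      (hb ▸ mem_adjoin_simple_self Ω (g : ConstExt k F Ω))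
    have haV : a ∈ V := (algebraMap_mem_gauss_iff r hr).mp (ha ▸ g.2)
    rw [show g = ⟨_, algebraMap_mem_gauss r haV⟩ from Subtype.ext ha.symm,
      gaussRed_algebraMap r ⟨a, haV⟩]
    exact isAlgebraic_algebraMap _)

variable [FF.IsFunctionField k F]

/-- The degree of the reduction of a function is at most the degree of the function. -/
theorem finrank_adjoin_gaussRed_le (g : (gauss r : ValuationSubring (ConstExt k F Ω)))
    (hx : Transcendental κ (gaussRed r g)) :
    Transcendental Ω (g : ConstExt k F Ω) ∧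
      Module.finrank κ⟮gaussRed r g⟯ (ConstExt k F κ) ≤
        Module.finrank Ω⟮(g : ConstExt k F Ω)⟯ (ConstExt k F Ω) := by
  have hg := transcendental_of_gaussRed hr g hx
  refine ⟨hg, ?_⟩
  set x := gaussRed r g
  have := FF.finiteDimensional_adjoin hx
  have := FF.finiteDimensional_adjoin hg
  let bk := Module.finBasis κ⟮x⟯ (ConstExt k F κ)
  choose u hu using fun y => gaussRed_surjective (F := F) r hr (bk y)
  have hli : LinearIndependent Ω⟮(g : ConstExt k F Ω)⟯ fun y => (u y : ConstExt k F Ω) := by
    refine FF.linearIndependent_adjoin hg fun p hp i => ?_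
    by_contra hpi
    let J := Σ y : Fin (Module.finrank κ⟮x⟯ (ConstExt k F κ)), Fin ((p y).natDegree + 1)
    let c : J → Ω := fun j => (p j.1).coeff j.2
    let U : J → (gauss r : ValuationSubring (ConstExt k F Ω)) := fun j => g ^ (j.2 : ℕ) * u j.1
    have hrel : ∑ j, c j • (U j : ConstExt k F Ω) = 0 := by
      rw [Fintype.sum_sigma, ← hp]
      refine Finset.sum_congr rfl fun y _ => ?_
      rw [aeval_eq_sum_range, Finset.sum_range, Finset.sum_mul]
      refine Finset.sum_congr rfl fun m _ => ?_
      simp [c, U]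
    obtain ⟨d, ⟨j₀, hd⟩, hdsum⟩ := gaussRed_relation r U (c := c) ⟨⟨i, 0⟩, hpi⟩ hrel
    let q : Fin (Module.finrank κ⟮x⟯ (ConstExt k F κ)) → κ[X] :=
      fun y => ∑ m : Fin ((p y).natDegree + 1), monomial (m : ℕ) (d ⟨y, m⟩)
    let e : Fin (Module.finrank κ⟮x⟯ (ConstExt k F κ)) → κ⟮x⟯ := fun y => ⟨aeval x (q y),
      algebra_adjoin_le_adjoin κ _ (aeval_mem_adjoin_singleton κ x)⟩
    have h0 : ∑ y, e y • bk y = 0 := by
      rw [← hdsum, Fintype.sum_sigma]
      refine Finset.sum_congr rfl fun y _ => ?_
      simp [e, q, U, x, hu, Finset.sum_mul, aeval_monomial,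
        Algebra.smul_def, mul_assoc]
    have h1 : q j₀.1 = 0 := transcendental_iff.mp hx _
      (congrArg Subtype.val (Fintype.linearIndependent_iff.mp bk.linearIndependent e h0 j₀.1))
    refine hd ?_
    simpa [q, finsetSum_coeff, coeff_monomial, Fin.val_inj] using
      congrArg (fun t => Polynomial.coeff t (j₀.2 : ℕ)) h1
  simpa using hli.fintype_card_le_finrank

variable [IsAlgClosed κ]

theorem finiteDimensional_redW (D : Divisor Ω (ConstExt k F Ω)) :
    FiniteDimensional κ (redW r (riemannRochSpace D)) := (finrank_redW hr _).1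

/-- The pole bound of the reduction of a Riemann–Roch space. -/
def rho (D : Divisor Ω (ConstExt k F Ω)) : Divisor κ (ConstExt k F κ) :=
  haveI := finiteDimensional_redW hr D
  poleBound (redW r (riemannRochSpace D))

theorem rho_nonneg (D : Divisor Ω (ConstExt k F Ω)) : 0 ≤ rho hr D :=
  haveI := finiteDimensional_redW hr D
  poleBound_nonneg _

theorem redW_le_rho (D : Divisor Ω (ConstExt k F Ω)) :
    redW r (riemannRochSpace D) ≤ riemannRochSpace (rho hr D) :=
  haveI := finiteDimensional_redW hr D
  le_poleBound _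

theorem ell_le_ell_rho (D : Divisor Ω (ConstExt k F Ω)) :
    FF.ell Ω D ≤ FF.ell κ (rho hr D) := by
  have := finiteDimensional_redW hr D
  have h := Submodule.finrank_mono (redW_le_rho hr D)
  rw [(finrank_redW hr _).2] at h
  unfold FF.ell
  exact_mod_cast h

theorem degree_rho_le {D : Divisor Ω (ConstExt k F Ω)} (hD : 0 ≤ D) :
    Divisor.degree (rho hr D) ≤ Divisor.degree D := by
  have := finiteDimensional_redW hr D
  obtain ⟨y, hy, hle⟩ := exists_poles_ge_poleBound (redW r (riemannRochSpace D))
  refine (FF.degree_mono hle).trans ?_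
  by_cases hx : IsAlgebraic κ y
  · rw [show FF.poles κ y = 0 from Finsupp.ext fun v => by
      simp [FF.ord_eq_zero_of_isAlgebraic hx v], map_zero]
    exact FF.degree_nonneg hD
  · obtain ⟨g, hg, rfl⟩ := exists_of_mem_redW hr hy
    obtain ⟨hgt, hfin⟩ := finrank_adjoin_gaussRed_le hr g hx
    rw [FF.degree_poles hx]
    refine le_trans (Int.ofNat_le.mpr hfin) ?_
    rw [← FF.degree_poles hgt]
    refine FF.degree_mono (Finsupp.le_def.mpr fun v => ?_)
    have hg0 : (g : ConstExt k F Ω) ≠ 0 := fun e => hgt (e ▸ isAlgebraic_zero)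
    have h1 := FF.le_ord_of_mem_ordGe v hg0 (FF.mem_riemannRochSpace'.mp hg v)
    have h2 := Finsupp.le_def.mp hD v
    simp only [Finsupp.coe_zero, Pi.zero_apply] at h2
    rw [FF.poles_apply]
    omega

end Fermat.Agent.AbVar
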