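import Mathlib.RingTheory.Jacobson.Ring
import Mathlib.RingTheory.Flat.Basic
import Mathlib.RingTheory.TensorProduct.Maps
import Mathlib.LinearAlgebra.TensorProduct.Basis
import Mathlib.FieldTheory.IsAlgClosed.Basic
import Mathlib.LinearAlgebra.Basis.VectorSpace

/-!
# Domains over an algebraically closed field stay domains after base change
-/

set_option autoImplicit false

noncomputable section

open scoped TensorProduct

namespace Fermat.Agent.AbVar

variable {k : Type*} [Field k] [IsAlgClosed k]

/-- An element of a finitely generated domain killed by all rational points is zero. -/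
theorem eq_zero_of_forall_point {R : Type*} [CommRing R] [IsDomain R] [Algebra k R]
    [Algebra.FiniteType k R] {r : R} (h : ∀ φ : R →ₐ[k] k, φ r = 0) : r = 0 := by
  have : IsJacobsonRing R := isJacobsonRing_of_finiteType (A := k)
  have hr : r ∈ Ideal.jacobson (⊥ : Ideal R) := by
    refine Ideal.mem_sInf.mpr fun {m} hm => ?_
    obtain ⟨-, hmax⟩ := hm
    have := hmax
    let := Ideal.Quotient.field m
    have : Module.Finite k (R ⧸ m) := finite_of_finite_type_of_isJacobsonRing k (R ⧸ m)
    have hb : Function.Bijective (algebraMap k (R ⧸ m)) :=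
      IsAlgClosed.algebraMap_bijective_of_isIntegral (k := k) (K := R ⧸ m)
    let e : k ≃ₐ[k] R ⧸ m := AlgEquiv.ofBijective (Algebra.ofId k (R ⧸ m)) hb
    have h1 := h (e.symm.toAlgHom.comp (Ideal.Quotient.mkₐ k m))
    rw [AlgHom.comp_apply] at h1
    refine Ideal.Quotient.eq_zero_iff_mem.mp ?_
    exact e.symm.map_eq_zero_iff.mp h1
  rwa [IsJacobsonRing.out ‹IsJacobsonRing R› (Ideal.isPrime_bot (α := R)).isRadical, Submodule.mem_bot] at hr

/-- The tensor product of two domains over an algebraically closed field is a domain. -/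
theorem isDomain_tensorProduct (k A B : Type*) [Field k] [IsAlgClosed k] [CommRing A] [IsDomain A]
    [Algebra k A] [CommRing B] [IsDomain B] [Algebra k B] : IsDomain (A ⊗[k] B) := by
  classical
  have : Nontrivial (A ⊗[k] B) :=
    (Algebra.TensorProduct.includeLeft_injective (S := k) (A := A) (B := B)
      (algebraMap k B).injective).nontrivial
  suffices NoZeroDivisors (A ⊗[k] B) from NoZeroDivisors.to_isDomain _
  refine ⟨fun {z w} h => ?_⟩
  let b := Module.Basis.ofVectorSpace k A
  let e := TensorProduct.equivFinsuppOfBasisLeft (R := k) (N := B) b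
  by_contra! hne
  obtain ⟨i, hi⟩ := Finsupp.ne_iff.mp (fun he => hne.1 (e.map_eq_zero_iff.mp he) : e z ≠ 0)
  obtain ⟨j, hj⟩ := Finsupp.ne_iff.mp (fun he => hne.2 (e.map_eq_zero_iff.mp he) : e w ≠ 0)
  simp only [Finsupp.coe_zero, Pi.zero_apply] at hi hj
  let s : Finset B := (e z).support.image (e z) ∪ (e w).support.image (e w)
  let R : Subalgebra k B := Algebra.adjoin k (s : Set B)
  have : Algebra.FiniteType k R := (Subalgebra.fg_iff_finiteType R).mp (Subalgebra.fg_adjoin_finset s)
  have hz : ∀ l ∈ (e z).support, e z l ∈ R := fun l hl => Algebra.subset_adjoin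
    (Finset.mem_coe.mpr (Finset.mem_union_left _ (Finset.mem_image_of_mem _ hl)))
  have hw : ∀ l ∈ (e w).support, e w l ∈ R := fun l hl => Algebra.subset_adjoin
    (Finset.mem_coe.mpr (Finset.mem_union_right _ (Finset.mem_image_of_mem _ hl)))
  let zR : A ⊗[k] R := ∑ l ∈ (e z).support.attach, b l.1 ⊗ₜ ⟨e z l.1, hz _ l.2⟩
  let wR : A ⊗[k] R := ∑ l ∈ (e w).support.attach, b l.1 ⊗ₜ ⟨e w l.1, hw _ l.2⟩
  let up : A ⊗[k] R →ₐ[k] A ⊗[k] B := Algebra.TensorProduct.map (AlgHom.id k A) R.val
  have hup : Function.Injective up := Module.Flat.lTensor_preserves_injective_linearMap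
    (M := A) R.val.toLinearMap Subtype.val_injective
  have hrep : ∀ y : A ⊗[k] B, ∑ l ∈ (e y).support, b l ⊗ₜ[k] e y l = y := fun y => by
    conv_rhs => rw [← e.symm_apply_apply y]
    rw [TensorProduct.equivFinsuppOfBasisLeft_symm_apply]
    rfl
  have hz' : up zR = z := by
    simp only [zR, up, map_sum, Algebra.TensorProduct.map_tmul, AlgHom.coe_id, id,
      Subalgebra.coe_val]
    rw [Finset.sum_attach (e z).support fun l => b l ⊗ₜ[k] e z l]
    exact hrep z
  have hw' : up wR = w := by
    simp only [wR, up, map_sum, Algebra.TensorProduct.map_tmul, AlgHom.coe_id, id,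
      Subalgebra.coe_val]
    rw [Finset.sum_attach (e w).support fun l => b l ⊗ₜ[k] e w l]
    exact hrep w
  have hzw : zR * wR = 0 := hup (by rw [map_mul, hz', hw', h, map_zero])
  have hi' : i ∈ (e z).support := Finsupp.mem_support_iff.mpr hi
  have hj' : j ∈ (e w).support := Finsupp.mem_support_iff.mpr hj
  have key : ∀ φ : R →ₐ[k] k, φ (⟨e z i, hz i hi'⟩ * ⟨e w j, hw j hj'⟩) = 0 := by
    intro φ
    let ψ : A ⊗[k] R →ₐ[k] A :=
      Algebra.TensorProduct.productMap (AlgHom.id k A) ((Algebra.ofId k A).comp φ)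
    have h0 : ψ zR * ψ wR = 0 := by rw [← map_mul, hzw, map_zero]
    have coord : ∀ (t : Finset _) (f : t → R) (l₀ : t),
        b.repr (ψ (∑ l ∈ t.attach, b l.1 ⊗ₜ f l)) l₀.1 = φ (f l₀) := by
      intro t f l₀
      have he : ∀ l : t, ψ (b l.1 ⊗ₜ f l) = φ (f l) • b l.1 := fun l => by
        rw [Algebra.TensorProduct.productMap_apply_tmul, Algebra.smul_def, mul_comm]
        rfl
      simp only [map_sum, he, Finsupp.coe_finsetSum, Finset.sum_apply, map_smul,
        Module.Basis.repr_self, Finsupp.smul_single, smul_eq_mul, mul_one, Finsupp.single_apply]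
      rw [Finset.sum_eq_single l₀]
      · simp
      · intro l _ hl; rw [if_neg fun e => hl (Subtype.ext e)]
      · simp
    rcases mul_eq_zero.mp h0 with h1 | h1
    · have h2 := coord _ (fun l => ⟨e z l.1, hz _ l.2⟩) ⟨i, hi'⟩
      rw [h1, map_zero, Finsupp.zero_apply] at h2
      rw [map_mul, ← h2, zero_mul]
    · have h2 := coord _ (fun l => ⟨e w l.1, hw _ l.2⟩) ⟨j, hj'⟩
      rw [h1, map_zero, Finsupp.zero_apply] at h2
      rw [map_mul, ← h2, mul_zero]
  exact mul_ne_zero hi hj (congrArg Subtype.val (eq_zero_of_forall_point key))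

end Fermat.Agent.AbVar
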